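import Fermat.Agent.KLB.Tame.KummerBound
import Fermat.Agent.S24.FFBasic

/-!
# KL-B tame layer, node ABH
Abhyankar's lemma for the cover `E' = E(μ)`, `μ ^ m = x - a`.
-/

namespace Fermat.Agent.KLB

open AlgebraicCurve Polynomial Fermat.Agent.S24.FF

section aux

variable {K F : Type*} [Field K] [Field F] [Algebra K F] (w : Place K F)

theorem abh_aeval_mem {t : F} (ht : 0 ≤ w.ord t) (P : K[X]) :
    aeval t P ∈ w.toValuationSubring := by
  have ht' : t ∈ w.toValuationSubring := mem_of_ord_nonneg w ht
  induction P using Polynomial.induction_on' with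
  | add p q hp hq => rw [map_add]; exact add_mem hp hq
  | monomial n a =>
    rw [aeval_monomial]
    exact mul_mem (w.algebraMap_mem' a) (pow_mem ht' n)

theorem abh_ord_aeval_nonneg {t : F} (ht : 0 ≤ w.ord t) (P : K[X]) :
    0 ≤ w.ord (aeval t P) :=
  ord_nonneg_of_mem w (abh_aeval_mem w ht P)

theorem abh_ord_aeval_eq_zero {t : F} (ht : 0 < w.ord t) (P : K[X]) (hP : P.eval 0 ≠ 0) :
    w.ord (aeval t P) = 0 := by
  have hdec : aeval t P = algebraMap K F (P.coeff 0) + t * aeval t P.divX := by
    conv_lhs => rw [← Polynomial.divX_mul_X_add P]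
    simp only [map_add, map_mul, aeval_X, aeval_C]
    ring
  have hc : P.coeff 0 ≠ 0 := by rwa [Polynomial.coeff_zero_eq_eval_zero]
  have hc' : algebraMap K F (P.coeff 0) ≠ 0 := by
    simpa using hc
  rcases eq_or_ne (aeval t P.divX) 0 with h0 | h0
  · rw [hdec, h0, mul_zero, add_zero, ord_algebraMap]
  · have ht0 : t ≠ 0 := ne_zero_of_ord_ne_zero w ht.ne'
    have h1 : w.ord (algebraMap K F (P.coeff 0)) < w.ord (t * aeval t P.divX) := by
      rw [ord_algebraMap, w.ord_mul ht0 h0]
      have := abh_ord_aeval_nonneg w ht.le P.divX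
      omega
    rw [hdec, ord_add_eq_of_lt w hc' h1, ord_algebraMap]

theorem abh_ord_le_of_dvd {t : F} (ht : 0 ≤ w.ord t) {G H : K[X]} (hGH : G ∣ H)
    (hH : aeval t H ≠ 0) : w.ord (aeval t G) ≤ w.ord (aeval t H) := by
  obtain ⟨Q, rfl⟩ := hGH
  rw [map_mul] at hH ⊢
  rw [w.ord_mul (left_ne_zero_of_mul hH) (right_ne_zero_of_mul hH)]
  have := abh_ord_aeval_nonneg w ht Q
  omega

end aux

variable {A K L E L' E' : Type*} [CommRing A] [IsDomain A] [IsDiscreteValuationRing A] [Field K]
  [CharZero K] [Field L] [Field E] [Field L'] [Field E']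
  [Algebra A K] [IsFractionRing A K] [Algebra A L] [Algebra K L] [IsScalarTower A K L]
  [Algebra L E] [Algebra K E] [IsScalarTower K L E] [FiniteDimensional L E]
  [Algebra A L'] [Algebra K L'] [IsScalarTower A K L'] [Algebra L L'] [IsScalarTower A L L']
  [IsScalarTower K L L']
  [Algebra E E'] [Algebra L' E'] [Algebra L E'] [Algebra K E'] [IsScalarTower L E E']
  [IsScalarTower L L' E'] [IsScalarTower K L' E'] [IsScalarTower K E E']
  {x : L} {a : A} {m : ℕ} {μ : L'}

theorem IsCover.hUnr [DecidableEq A] (hcov : IsCover A (E := E) (E' := E') x a m μ) (hm : 0 < m)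
    (c : Finset A) (ha : a ∈ c)
    (hT : HT K (algebraMap L E x) (algebraMap A K '' (c : Set A)) m) :
    HUnr K (algebraMap L' E' μ)
      (algebraMap L E' (∏ b ∈ c.erase a, (x - algebraMap A L b))) := by
  intro w G hG hμ hκ
  set μ' := algebraMap L' E' μ with hμ'
  set xE := algebraMap L E x with hxE
  -- compatibilities
  have hmap : ∀ b : A, algebraMap E E' (xE - algebraMap K E (algebraMap A K b)) =
      algebraMap L E' (x - algebraMap A L b) := by
    intro b
    rw [map_sub, map_sub, hxE, ← IsScalarTower.algebraMap_apply L E E',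
      IsScalarTower.algebraMap_apply A K L, IsScalarTower.algebraMap_apply L E E' (algebraMap K L _),
      ← IsScalarTower.algebraMap_apply K L E]
  have hpow : μ' ^ m = algebraMap E E' (xE - algebraMap K E (algebraMap A K a)) := by
    rw [hmap, hμ', ← map_pow, hcov.pow_eq, map_sub, map_sub,
      ← IsScalarTower.algebraMap_apply L L' E', IsScalarTower.algebraMap_apply A L L',
      ← IsScalarTower.algebraMap_apply L L' E']
  -- transcendence
  have htr : Transcendental K μ' := by
    intro halg
    have h1 : IsAlgebraic K μ :=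
      (isAlgebraic_algebraMap_iff (algebraMap L' E').injective).mp halg
    exact hcov.coord.trans ((IsFractionRing.isAlgebraic_iff A K L').mpr h1)
  have hne : ∀ P : K[X], P ≠ 0 → aeval μ' P ≠ 0 := fun P hP h0 =>
    hP (transcendental_iff.mp htr P h0)
  have hμ0 : μ' ≠ 0 := by
    have := hne X X_ne_zero
    rwa [aeval_X] at this
  set cE : E := xE - algebraMap K E (algebraMap A K a) with hcE
  have hc0 : cE ≠ 0 := by
    intro h0
    rw [h0, map_zero] at hpow
    exact hμ0 (pow_eq_zero_iff hm.ne' |>.mp hpow)
  -- `E'/E` is algebraic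
  have hint : IsIntegral E μ' := by
    refine ⟨X ^ m - C cE, monic_X_pow_sub_C _ hm.ne', ?_⟩
    rw [eval₂_sub, eval₂_pow, eval₂_X, eval₂_C, hpow, sub_self]
  have : Algebra.IsAlgebraic E E' := by
    have h1 : Algebra.IsAlgebraic E (IntermediateField.adjoin E {μ'}) :=
      IntermediateField.isAlgebraic_adjoin (by
        intro y hy
        rw [Set.mem_singleton_iff] at hy
        rw [hy]; exact hint)
    rw [hcov.top] at h1
    exact (IntermediateField.topEquiv (F := E) (E := E')).isAlgebraic
  obtain ⟨v, e, hve⟩ := exists_placeOver_restrict (K := K) (E := E) w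
  have kb := kummer_bound μ' m hm cE hc0 hpow hcov.top hve
  obtain ⟨he, hve⟩ := hve
  have key : (m : ℤ) * w.ord μ' = e * v.ord cE := by
    rw [← ord_pow, hpow, hve]
  have heZ : (0 : ℤ) < e := by exact_mod_cast he
  have hmZ : (0 : ℤ) < m := by exact_mod_cast hm
  rcases hμ.eq_or_lt with h0 | hpos
  · -- `ord_w μ = 0`
    have hvc : v.ord cE = 0 := by
      rw [← h0, mul_zero] at key
      rcases mul_eq_zero.mp key.symm with h | h
      · omega
      · exact h
    have he1 : e = 1 := by
      rw [hvc, Int.gcd_zero_right, Int.natAbs_natCast] at kb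
      have : e ≤ 1 := by
        by_contra hlt
        push Not at hlt
        nlinarith
      omega
    by_contra hlt
    push Not at hlt
    subst he1
    have hfac : ∀ b : A, algebraMap L E' (x - algebraMap A L b) =
        aeval μ' (X ^ m + C (algebraMap A K a - algebraMap A K b)) := by
      intro b
      rw [← hmap, map_add, map_pow, aeval_X, aeval_C, hpow, IsScalarTower.algebraMap_apply K E E',
        ← map_add, hcE]
      congr 1
      rw [map_sub]; ring
    have hfac0 : ∀ b : A, algebraMap L E' (x - algebraMap A L b) ≠ 0 := by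
      intro b
      rw [hfac]
      exact hne _ (monic_X_pow_add_C _ hm.ne').ne_zero
    have hfacmem : ∀ b : A, algebraMap L E' (x - algebraMap A L b) ∈ w.toValuationSubring := by
      intro b
      rw [hfac]
      exact abh_aeval_mem w hμ _
    -- the auxiliary polynomial
    have : Fact (Irreducible G) := ⟨hG⟩
    set β : AdjoinRoot G := AdjoinRoot.root G with hβ
    have hfin : Module.Finite K (AdjoinRoot G) := (AdjoinRoot.powerBasis hG.ne_zero).finite
    have hβint : IsIntegral K (β ^ m) := Algebra.IsIntegral.isIntegral _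
    set H0 : K[X] := minpoly K (β ^ m) with hH0
    have hH0irr : Irreducible H0 := minpoly.irreducible hβint
    have hdvd : G ∣ H0.comp (X ^ m) := by
      rw [← AdjoinRoot.mk_eq_zero, ← AdjoinRoot.aeval_eq, aeval_comp, map_pow, aeval_X]
      exact minpoly.aeval K _
    have hcomp0 : H0.comp (X ^ m) ≠ 0 := by
      rw [← expand_eq_comp_X_pow]
      exact (expand_ne_zero hm).mpr hH0irr.ne_zero
    set aK : K := algebraMap A K a with haK
    set Ht : K[X] := H0.comp (X - C aK) with hHt
    have hHtirr : Irreducible Ht := by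
      have h1 : Ht = algEquivAevalXAddC (-aK) H0 := by
        rw [hHt, algEquivAevalXAddC_apply, C_neg, ← sub_eq_add_neg]
        rfl
      rw [h1]
      exact (MulEquiv.irreducible_iff (algEquivAevalXAddC (-aK)).toMulEquiv).mpr hH0irr
    have hval : aeval μ' (H0.comp (X ^ m)) = algebraMap E E' (aeval xE Ht) := by
      rw [aeval_comp, map_pow, aeval_X, hpow, aeval_algebraMap_apply, hHt, aeval_comp, map_sub,
        aeval_X, aeval_C]
    have hchain : w.ord (aeval μ' G) ≤ v.ord (aeval xE Ht) := by
      have h1 := abh_ord_le_of_dvd w hμ hdvd (hne _ hcomp0)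
      rw [hval, hve] at h1
      simpa using h1
    have hroots : ∀ b' ∈ algebraMap A K '' (c : Set A), Ht.eval b' ≠ 0 := by
      rintro _ ⟨b, hb, rfl⟩ hroot
      obtain ⟨u, hu⟩ := dvd_iff_isRoot.mpr hroot
      have huu : IsUnit u := (hHtirr.isUnit_or_isUnit hu).resolve_left (not_isUnit_X_sub_C _)
      obtain ⟨k, hk, rfl⟩ := Polynomial.isUnit_iff.mp huu
      have hev : aeval xE Ht =
          (xE - algebraMap K E (algebraMap A K b)) * algebraMap K E k := by
        rw [hu, map_mul, map_sub, aeval_X, aeval_C, aeval_C]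
      have hgt : 1 < v.ord (aeval xE Ht) := lt_of_lt_of_le hlt hchain
      have hne0 : aeval xE Ht ≠ 0 := ne_zero_of_ord_ne_zero v (by omega)
      rw [hev] at hgt hne0
      rw [v.ord_mul (left_ne_zero_of_mul hne0) (right_ne_zero_of_mul hne0), ord_algebraMap,
        add_zero] at hgt
      by_cases hba : b = a
      · subst hba
        rw [← hcE, hvc] at hgt
        omega
      · have hw : 1 < w.ord (algebraMap L E' (x - algebraMap A L b)) := by
          rw [← hmap, hve]
          simpa using hgt
        have hbmem : b ∈ c.erase a := Finset.mem_erase.mpr ⟨hba, hb⟩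
        rw [← Finset.mul_prod_erase _ _ hbmem, map_mul, map_prod,
          w.ord_mul (hfac0 b) (Finset.prod_ne_zero_iff.mpr fun b' _ => hfac0 b')] at hκ
        have hr : 0 ≤ w.ord (∏ b' ∈ (c.erase a).erase b,
            algebraMap L E' (x - algebraMap A L b')) :=
          ord_nonneg_of_mem w (prod_mem fun b' _ => hfacmem b')
        omega
    have := hT.unram v Ht hHtirr hroots
    omega
  · -- `ord_w μ > 0`
    have hvpos : 0 < v.ord cE := by
      have h1 : 0 < (e : ℤ) * v.ord cE := by rw [← key]; positivity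
      exact (mul_pos_iff_of_pos_left heZ).mp h1
    have hdvd : v.ord cE ∣ (m : ℤ) := hT.tame v _ ⟨a, ha, rfl⟩ hvpos
    have hgcd : (Int.gcd m (v.ord cE) : ℤ) = v.ord cE := by
      exact Int.gcd_eq_right hvpos.le hdvd
    have hle : (e : ℤ) * v.ord cE ≤ m := by
      rw [← hgcd]; exact_mod_cast kb
    have h1 : w.ord μ' = 1 := by
      have : w.ord μ' ≤ 1 := by
        by_contra hlt
        push Not at hlt
        nlinarith
      omega
    by_cases hG0 : G.eval 0 = 0
    · have hX : (X : K[X]) ∣ G := by
        have := dvd_iff_isRoot.mpr hG0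
        rwa [C_0, sub_zero] at this
      obtain ⟨u, rfl⟩ := hX
      have hu : IsUnit u := (hG.isUnit_or_isUnit rfl).resolve_left not_isUnit_X
      obtain ⟨k, hk, rfl⟩ := Polynomial.isUnit_iff.mp hu
      rw [map_mul, aeval_X, aeval_C, w.ord_mul hμ0 (by simpa using hk.ne_zero), ord_algebraMap, h1]
      norm_num
    · rw [abh_ord_aeval_eq_zero w hpos G hG0]
      norm_num

end Fermat.Agent.KLB
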