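import Fermat.Agent.KLB.Tame.Defs
import Fermat.Agent.S24.FFSum
import Fermat.Agent.Lib.GoodRed.Tame

/-!
# KL-B tame layer, node BRIDGE  (proof: helper259)
If all places of `E / K` over the locus `κ ≠ 0` of the `t`-line are unramified, the codifferent
of `E / K(t)` relative to `K[t, 1/κ] = A[t][1/(π κ)]` is trivial.

* `Bridge.unr_of_differentIdeal_eq_top`, `Bridge.differentIdeal_eq_top`: abstract Dedekind part.
* `Bridge.unr_of_HUnr_aux`: the statement for a subring `O` of `L` which is a localisation of `K[t]`.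
-/

namespace Fermat.Agent.KLB

open AlgebraicCurve Polynomial IsDedekindDomain

namespace Bridge

attribute [local instance] FractionRing.liftAlgebra FractionRing.isScalarTower_liftAlgebra
  Ideal.Quotient.field

section Abstract

variable (O L E B : Type*) [CommRing O] [IsDedekindDomain O] [Field L] [Field E] [Algebra O L]
  [IsFractionRing O L] [Algebra L E] [Algebra O E] [IsScalarTower O L E] [FiniteDimensional L E]
  [Algebra.IsSeparable L E] [CommRing B] [IsDedekindDomain B] [Algebra O B] [Algebra B E]
  [IsScalarTower O B E] [IsIntegralClosure B O E] [IsFractionRing B E]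

/-- trivial different => trivial codifferent -/
theorem unr_of_differentIdeal_eq_top [Module.IsTorsionFree O B]
    (h : differentIdeal O B = ⊤) : Unr O L E := by
  intro y hy
  have h1 : (FractionalIdeal.dual O L (1 : FractionalIdeal (nonZeroDivisors B) E))⁻¹ = 1 := by
    rw [← coeIdeal_differentIdeal O L E B, h, FractionalIdeal.coeIdeal_top]
  have h2 : FractionalIdeal.dual O L (1 : FractionalIdeal (nonZeroDivisors B) E) = 1 := by
    rwa [inv_eq_one] at h1
  have h3 : y ∈ FractionalIdeal.dual O L (1 : FractionalIdeal (nonZeroDivisors B) E) := by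
    rw [FractionalIdeal.mem_dual (one_ne_zero' (FractionalIdeal (nonZeroDivisors B) E))]
    intro a ha
    obtain ⟨b, rfl⟩ := (FractionalIdeal.mem_one_iff _).mp ha
    have h4 : IsIntegral O (algebraMap B E b) :=
      (IsIntegralClosure.isIntegral_iff (A := B)).mpr ⟨b, rfl⟩
    exact IsIntegrallyClosed.isIntegral_iff.mp (hy _ h4)
  rw [h2] at h3
  obtain ⟨b, rfl⟩ := (FractionalIdeal.mem_one_iff _).mp h3
  exact (IsIntegralClosure.isIntegral_iff (A := B)).mpr ⟨b, rfl⟩

/-- all primes unramified (residue characteristic zero) => trivial different -/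
theorem differentIdeal_eq_top [Module.IsTorsionFree O B] [Module.Finite O B] [CharZero O]
    (hchar : ∀ p : Ideal O, p.IsMaximal → CharZero (O ⧸ p))
    (hunr : ∀ P : Ideal B, P.IsPrime → P ≠ ⊥ → ¬ (P.under O).map (algebraMap O B) ≤ P ^ 2) :
    differentIdeal O B = ⊤ := by
  classical
  by_contra hne
  obtain ⟨P, hPmax, hle⟩ := Ideal.exists_le_maximal _ hne
  have hsep := GoodRed.isSeparable_fractionRing_of_charZero O (B := B)
  have hP0 : P ≠ ⊥ := by
    rintro rfl
    exact differentIdeal_ne_bot (A := O) (B := B) (le_bot_iff.mp hle)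
  have hPprime : P.IsPrime := hPmax.isPrime
  set p := P.under O with hp
  have hp0 : p ≠ ⊥ := Ideal.under_ne_bot O hP0
  have hpmax : p.IsMaximal := Ideal.IsPrime.isMaximal inferInstance hp0
  have := hchar p hpmax
  have hpB : p.map (algebraMap O B) ≠ ⊥ := Ideal.map_ne_bot_of_ne_bot hp0
  obtain ⟨Q, hPQ, hfac⟩ := Ideal.eq_prime_pow_mul_coprime hpB P
  set e := Multiset.count P (UniqueFactorizationMonoid.normalizedFactors (p.map (algebraMap O B)))
    with he
  have hle' : p.map (algebraMap O B) ≤ P := Ideal.map_comap_le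
  have he1 : e = 1 := by
    have h2 : e < 2 := by
      by_contra h2
      apply hunr P hPprime hP0
      rw [hfac]
      exact Ideal.mul_le_left.trans (Ideal.pow_le_pow_right (not_lt.mp h2))
    have h0 : e ≠ 0 := by
      intro h0
      rw [h0, pow_zero, one_mul] at hfac
      rw [hfac] at hle'
      have : P ⊔ Q = P := sup_eq_left.mpr hle'
      rw [this] at hPQ
      exact hPmax.ne_top hPQ
    omega
  rw [he1, pow_one] at hfac
  exact GoodRed.not_dvd_differentIdeal_of_charZero O p P Q hPmax.ne_top
    (Ideal.isCoprime_iff_sup_eq.mpr hPQ) hfac.symm (Ideal.dvd_iff_le.mpr hle)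

end Abstract

section Semi

variable {K L E : Type*} [Field K] [CharZero K] [Field L] [Field E] [Algebra K L] [Algebra L E]
  [Algebra K E] [IsScalarTower K L E] [FiniteDimensional L E]

open WithZero in
theorem unr_of_HUnr_aux {t : L} (htK : Transcendental K t) (O : Subring L)
    (hKt : ∀ a ∈ Algebra.adjoin K {t}, a ∈ O)
    (hloc : ∀ a ∈ O, ∃ d ∈ Algebra.adjoin K {t}, d ≠ 0 ∧ d⁻¹ ∈ O ∧ d * a ∈ Algebra.adjoin K {t})
    (hfrac : ∀ z : L, ∃ x ∈ O, ∃ y ∈ O, z = x / y)
    (κ : L) (hκ : κ ∈ O) (hκ' : κ⁻¹ ∈ O)
    (h : HUnr K (algebraMap L E t) (algebraMap L E κ)) : Unr O L E := by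
  classical
  have : IsPrincipalIdealRing (Algebra.adjoin K {t}) := S24.FF.isPrincipalIdealRing_adjoin t htK
  let _ : Algebra (Algebra.adjoin K {t}) O :=
    ((algebraMap (Algebra.adjoin K {t}) L).codRestrict O (fun a => hKt a a.2)).toAlgebra
  have hcoe : ∀ a : Algebra.adjoin K {t}, ((algebraMap (Algebra.adjoin K {t}) O a : O) : L) = a :=
    fun _ => rfl
  let M : Submonoid (Algebra.adjoin K {t}) :=
    (IsUnit.submonoid O).comap (algebraMap (Algebra.adjoin K {t}) O)
  have hinj : Function.Injective (algebraMap (Algebra.adjoin K {t}) O) := by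
    intro a b hab
    have h1 : ((algebraMap (Algebra.adjoin K {t}) O a : O) : L)
        = ((algebraMap (Algebra.adjoin K {t}) O b : O) : L) := congrArg Subtype.val hab
    exact Subtype.ext h1
  have : IsLocalization M O :=
    { map_units := fun d => d.2
      surj := by
        rintro ⟨a, ha⟩
        obtain ⟨d, hd, hd0, hdinv, hda⟩ := hloc a ha
        refine ⟨(⟨d * a, hda⟩, ⟨⟨d, hd⟩, ?_⟩), ?_⟩
        · show IsUnit (algebraMap (Algebra.adjoin K {t}) O ⟨d, hd⟩)
          refine IsUnit.of_mul_eq_one (⟨d⁻¹, hdinv⟩ : O) ?_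
          exact Subtype.ext (mul_inv_cancel₀ hd0)
        · exact Subtype.ext (mul_comm a d)
      exists_of_eq := fun {a b} hab => ⟨1, by rw [hinj hab]⟩ }
  have hM : M ≤ nonZeroDivisors (Algebra.adjoin K {t}) := by
    intro d hd
    rw [mem_nonZeroDivisors_iff_ne_zero]
    rintro rfl
    have : IsUnit (algebraMap (Algebra.adjoin K {t}) O 0) := hd
    rw [map_zero] at this
    exact not_isUnit_zero this
  have : IsDedekindDomain O := IsLocalization.isDedekindDomain (Algebra.adjoin K {t}) hM O
  have : IsFractionRing O L := IsFractionRing.of_field O L (fun z => by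
    obtain ⟨x, hx, y, hy, rfl⟩ := hfrac z
    exact ⟨⟨x, hx⟩, ⟨y, hy⟩, rfl⟩)
  have : CharZero L := charZero_of_injective_algebraMap (algebraMap K L).injective
  have : CharZero O := (algebraMap O L).charZero
  have : IsDedekindDomain (integralClosure O E) := integralClosure.isDedekindDomain O L E
  have : IsFractionRing (integralClosure O E) E :=
    integralClosure.isFractionRing_of_finite_extension L E
  have : Module.Finite O (integralClosure O E) := IsIntegralClosure.finite O L E _
  have hKO : ∀ c : K, algebraMap K L c ∈ O := fun c => hKt _ (Subalgebra.algebraMap_mem _ c)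
  let _ : Algebra K O := ((algebraMap K L).codRestrict O hKO).toAlgebra
  let _ : Algebra K (integralClosure O E) :=
    ((algebraMap O (integralClosure O E)).comp (algebraMap K O)).toAlgebra
  have : IsScalarTower K (integralClosure O E) E := IsScalarTower.of_algebraMap_eq fun c =>
    IsScalarTower.algebraMap_apply K L E c
  apply unr_of_differentIdeal_eq_top O L E (integralClosure O E)
  apply differentIdeal_eq_top O (integralClosure O E)
  · intro p hp
    have : Nontrivial (O ⧸ p) := Ideal.Quotient.nontrivial_iff.mpr hp.ne_top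
    exact charZero_of_injective_ringHom ((Ideal.Quotient.mk p).comp (algebraMap K O)).injective
  · intro P hP hP0 hle
    let w : HeightOneSpectrum (integralClosure O E) := ⟨P, hP, hP0⟩
    set v := Place.ofHeightOneSpectrum (K := K) (F := E) w with hv
    have hmem : ∀ a ∈ O, 0 ≤ v.ord (algebraMap L E a) := fun a ha =>
      S24.FF.ord_nonneg_of_mem v
        (S24.FF.algebraMap_mem_ofHeightOneSpectrum w (algebraMap O (integralClosure O E) ⟨a, ha⟩))
    have h0 : 0 ≤ v.ord (algebraMap L E t) :=
      hmem t (hKt t (Algebra.self_mem_adjoin_singleton K t))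
    have hκ0 : v.ord (algebraMap L E κ) = 0 := by
      have h1 := hmem κ hκ
      have h2 := hmem κ⁻¹ hκ'
      rw [map_inv₀, v.ord_inv] at h2
      omega
    set p := P.under O with hp
    have hp0 : p ≠ ⊥ := Ideal.under_ne_bot O hP0
    set p' := p.under (Algebra.adjoin K {t}) with hp'
    have hmap : p'.map (algebraMap (Algebra.adjoin K {t}) O) = p := IsLocalization.map_under M O p
    have hp'0 : p' ≠ ⊥ := by
      intro h
      rw [h, Ideal.map_bot] at hmap
      exact hp0 hmap.symm
    obtain ⟨g, hg⟩ : ∃ g, p' = Ideal.span {g} :=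
      ⟨_, (Ideal.span_singleton_generator p').symm⟩
    have hg0 : g ≠ 0 := by
      rintro rfl
      rw [Ideal.span_singleton_eq_bot.mpr rfl] at hg
      exact hp'0 hg
    have hp'prime : p'.IsPrime := inferInstance
    have hgprime : Prime g := (Ideal.span_singleton_prime hg0).mp (hg ▸ hp'prime)
    let e := Polynomial.algEquivOfTranscendental K t htK
    have hG : Irreducible (e.symm g) :=
      ((MulEquiv.prime_iff e.symm.toMulEquiv).mpr hgprime).irreducible
    have hGt : aeval t (e.symm g) = (g : L) := by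
      have h3 : ((e (e.symm g) : Algebra.adjoin K {t}) : L) = aeval t (e.symm g) := by
        rw [Polynomial.algEquivOfTranscendental_apply]
        exact (Polynomial.aeval_algHom_apply (Algebra.adjoin K {t}).val
          ⟨t, Algebra.self_mem_adjoin_singleton K t⟩ (e.symm g)).symm
      rw [← h3, AlgEquiv.apply_symm_apply]
    have h1 := h v (e.symm g) hG h0 hκ0
    rw [aeval_algebraMap_apply, hGt] at h1
    have hgP : algebraMap O (integralClosure O E) (algebraMap (Algebra.adjoin K {t}) O g) ∈ P ^ 2 :=
      hle (Ideal.mem_map_of_mem _ (hmap ▸ Ideal.mem_map_of_mem _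
        (hg ▸ Ideal.mem_span_singleton_self g)))
    have h2 := (w.intValuation_le_pow_iff_mem _ 2).mpr hgP
    rw [← HeightOneSpectrum.valuation_of_algebraMap (K := E)] at h2
    replace h2 : w.valuation E (algebraMap L E (g : L)) ≤ exp (-((2 : ℕ) : ℤ)) := h2
    rw [hv, S24.FF.ord_ofHeightOneSpectrum] at h1
    have hne : w.valuation E (algebraMap L E (g : L)) ≠ 0 := by
      rw [Valuation.ne_zero_iff]
      simpa using hg0
    rw [← exp_log hne, exp_le_exp] at h2
    push_cast at h2
    omega

end Semi

section Concrete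

theorem algebraMap_AL_injective {A : Type*} (K : Type*) {L : Type*} [CommRing A] [Field K] [Field L]
    [Algebra A K] [IsFractionRing A K] [Algebra A L] [Algebra K L] [IsScalarTower A K L] :
    Function.Injective (algebraMap A L) := by
  rw [IsScalarTower.algebraMap_eq A K L]
  exact (algebraMap K L).injective.comp (IsFractionRing.injective A K)

variable {A K L E : Type*} [CommRing A] [IsDomain A] [IsDiscreteValuationRing A] [Field K]
  [CharZero K] [Field L] [Field E] [Algebra A K] [IsFractionRing A K] [Algebra A L] [Algebra K L]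
  [IsScalarTower A K L] [Algebra L E] [Algebra K E] [IsScalarTower K L E]
  [FiniteDimensional L E] {t : L} (ht : IsCoord A t) {π : A} (hπ : Irreducible π)

include ht in
omit [IsDiscreteValuationRing A] [CharZero K] in
theorem transcendental_K : Transcendental K t :=
  fun h => ht.trans ((IsFractionRing.isAlgebraic_iff A K L).mpr h)


include hπ in
omit [CharZero K] in
theorem algebraMap_K_mem (κ : Algebra.adjoin A {t}) {Oπκ : Subring L}
    (hO : IsLocSub (Submonoid.powers (algebraMap A (Algebra.adjoin A {t}) π * κ)) Oπκ) (c : K) :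
    algebraMap K L c ∈ Oπκ := by
  obtain ⟨a, b, hb, rfl⟩ := IsFractionRing.div_surjective (A := A) c
  have hb0 : b ≠ 0 := nonZeroDivisors.ne_zero hb
  obtain ⟨n, u, hu⟩ := IsDiscreteValuationRing.eq_unit_mul_pow_irreducible hb0 hπ
  rw [hO]
  refine ⟨_, ⟨n, rfl⟩, κ ^ n * algebraMap A _ (a * ((u⁻¹ : Aˣ) : A)), ?_⟩
  have hπ0 : algebraMap A L π ≠ 0 := by
    rw [Ne, map_eq_zero_iff _ (algebraMap_AL_injective K)]
    exact hπ.ne_zero
  have hu1 : algebraMap A L (u : A) * algebraMap A L ((u⁻¹ : Aˣ) : A) = 1 := by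
    rw [← map_mul, Units.mul_inv, map_one]
  have hu0 : algebraMap A L (u : A) ≠ 0 := left_ne_zero_of_mul_eq_one hu1
  have e1 : algebraMap K L (algebraMap A K a / algebraMap A K b)
      = algebraMap A L a / (algebraMap A L (u : A) * algebraMap A L π ^ n) := by
    rw [map_div₀, ← IsScalarTower.algebraMap_apply, ← IsScalarTower.algebraMap_apply, hu, map_mul,
      map_pow]
  rw [e1]
  show ((algebraMap A L π * (κ : L)) ^ n) * _ = (κ : L) ^ n * (algebraMap A L (a * ((u⁻¹ : Aˣ) : A)))
  rw [map_mul, eq_comm, eq_inv_of_mul_eq_one_right hu1]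
  field_simp
  ring

end Concrete

end Bridge

variable {A K L E : Type*} [CommRing A] [IsDomain A] [IsDiscreteValuationRing A] [Field K]
  [CharZero K] [Field L] [Field E] [Algebra A K] [IsFractionRing A K] [Algebra A L] [Algebra K L]
  [IsScalarTower A K L] [Algebra L E] [Algebra K E] [IsScalarTower K L E]
  [FiniteDimensional L E] {t : L} (ht : IsCoord A t) {π : A} (hπ : Irreducible π)

include ht hπ in
theorem unr_of_HUnr (κ : Algebra.adjoin A {t}) (hκ : κ ≠ 0) {Oπκ : Subring L}
    (hO : IsLocSub (Submonoid.powers (algebraMap A (Algebra.adjoin A {t}) π * κ)) Oπκ)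
    (h : HUnr K (algebraMap L E t) (algebraMap L E κ)) : Unr Oπκ L E := by
  have := ht.frac
  have htK : Transcendental K t := Bridge.transcendental_K ht
  have hπ0 : algebraMap A L π ≠ 0 := by
    rw [Ne, map_eq_zero_iff _ (Bridge.algebraMap_AL_injective K)]
    exact hπ.ne_zero
  have hκ0 : (κ : L) ≠ 0 := fun h0 => hκ (Subtype.ext h0)
  have hSK : ∀ s : Algebra.adjoin A {t}, (s : L) ∈ Algebra.adjoin K {t} := by
    rintro ⟨s, hs⟩
    show s ∈ Algebra.adjoin K {t}
    induction hs using Algebra.adjoin_induction with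
    | mem x hx => exact Algebra.subset_adjoin hx
    | algebraMap r =>
      rw [IsScalarTower.algebraMap_apply A K L]
      exact Subalgebra.algebraMap_mem _ _
    | add x y _ _ hx hy => exact add_mem hx hy
    | mul x y _ _ hx hy => exact mul_mem hx hy
  have hKt : ∀ a ∈ Algebra.adjoin K {t}, a ∈ Oπκ := by
    intro a ha
    induction ha using Algebra.adjoin_induction with
    | mem x hx =>
      rw [Set.mem_singleton_iff] at hx
      subst hx
      exact hO.algebraMap_mem ⟨x, Algebra.self_mem_adjoin_singleton A x⟩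
    | algebraMap r => exact Bridge.algebraMap_K_mem hπ κ hO r
    | add x y _ _ hx hy => exact add_mem hx hy
    | mul x y _ _ hx hy => exact mul_mem hx hy
  refine Bridge.unr_of_HUnr_aux htK Oπκ hKt ?_ ?_ κ (hO.algebraMap_mem κ) ?_ h
  · intro a ha
    obtain ⟨d, hd, s, hs⟩ := (hO a).mp ha
    refine ⟨d, hSK d, ?_, hO.inv_mem hd, ?_⟩
    · obtain ⟨n, rfl⟩ := hd
      exact pow_ne_zero n (mul_ne_zero hπ0 hκ0)
    · have hs' : (d : L) * a = (s : L) := hs
      rw [hs']
      exact hSK s
  · intro z
    obtain ⟨x, y, hy, rfl⟩ := IsFractionRing.div_surjective (A := Algebra.adjoin A {t}) z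
    exact ⟨_, hO.algebraMap_mem x, _, hO.algebraMap_mem y, rfl⟩
  · have h1 := hO.inv_mem (d := algebraMap A (Algebra.adjoin A {t}) π * κ) ⟨1, pow_one _⟩
    have h2 := hO.algebraMap_mem (algebraMap A (Algebra.adjoin A {t}) π)
    have h3 := mul_mem h2 h1
    have h4 : algebraMap (Algebra.adjoin A {t}) L (algebraMap A (Algebra.adjoin A {t}) π) *
        (algebraMap (Algebra.adjoin A {t}) L (algebraMap A (Algebra.adjoin A {t}) π * κ))⁻¹
        = (κ : L)⁻¹ := by
      show algebraMap A L π * (algebraMap A L π * (κ : L))⁻¹ = (κ : L)⁻¹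
      field_simp
    rwa [h4] at h3

end Fermat.Agent.KLB
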