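import Fermat.Agent.KLB.Tame.Defs

/-!
# KL-B tame layer, node EXISTS
Existence of the Kummer cover `E' = E(μ)`, `L' = K(μ)`, `μ ^ m = x - a`.
-/

namespace Fermat.Agent.KLB

open AlgebraicCurve Polynomial

universe u v

/-- A Kummer cover, with all its structure maps. -/
structure CoverData (A K L : Type v) (E : Type u) [CommRing A] [Field K] [Field L] [Field E]
    [Algebra A K] [Algebra A L] [Algebra K L] [Algebra L E] [Algebra K E] (x : L) (a : A) (m : ℕ)
    where
  L' : Type u
  E' : Type u
  [fL : Field L']
  [fE : Field E']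
  [aAL : Algebra A L']
  [aKL : Algebra K L']
  [tAKL : IsScalarTower A K L']
  [aLL : Algebra L L']
  [tALL : IsScalarTower A L L']
  [tKLL : IsScalarTower K L L']
  [aEE : Algebra E E']
  [aLE : Algebra L' E']
  [aLE' : Algebra L E']
  [aKE : Algebra K E']
  [tLEE : IsScalarTower L E E']
  [tLLE : IsScalarTower L L' E']
  [tKLE : IsScalarTower K L' E']
  [tKEE : IsScalarTower K E E']
  μ : L'
  isCover : IsCover A (E := E) (E' := E') x a m μ

attribute [instance] CoverData.fL CoverData.fE CoverData.aAL CoverData.aKL CoverData.tAKL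
  CoverData.aLL CoverData.tALL CoverData.tKLL CoverData.aEE CoverData.aLE CoverData.aLE'
  CoverData.aKE CoverData.tLEE CoverData.tLLE CoverData.tKLE CoverData.tKEE

/-- every element of `K(μ)` is a quotient of two polynomials in `μ` with coefficients in `A`,
`K = Frac A`. -/
private theorem exists_div_of_mem_adjoin {A K F : Type*} [CommRing A] [IsDomain A] [Field K]
    [Field F] [Algebra A K] [IsFractionRing A K] [Algebra K F] [Algebra A F] [IsScalarTower A K F]
    {μ z : F} (hz : z ∈ IntermediateField.adjoin K {μ}) :
    ∃ P Q : A[X], z = aeval μ P / aeval μ Q := by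
  obtain ⟨r, s, rfl⟩ := (IntermediateField.mem_adjoin_simple_iff K z).1 hz
  obtain ⟨b, hbM, hb⟩ := IsLocalization.integerNormalization_spec (nonZeroDivisors A) r
  obtain ⟨c, hcM, hc⟩ := IsLocalization.integerNormalization_spec (nonZeroDivisors A) s
  set r' := IsLocalization.integerNormalization (nonZeroDivisors A) r
  set s' := IsLocalization.integerNormalization (nonZeroDivisors A) s
  have hinj : Function.Injective (algebraMap A F) := by
    rw [IsScalarTower.algebraMap_eq A K F]
    exact (algebraMap K F).injective.comp (IsFractionRing.injective A K)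
  have hb0 : algebraMap A F (b : A) ≠ 0 := by
    intro h0
    exact nonZeroDivisors.ne_zero hbM (hinj (by rw [h0, map_zero]))
  have hc0 : algebraMap A F (c : A) ≠ 0 := by
    intro h0
    exact nonZeroDivisors.ne_zero hcM (hinj (by rw [h0, map_zero]))
  have h1 : aeval μ r' = algebraMap A F (b : A) * aeval μ r := by
    have := congrArg (aeval μ) hb
    rwa [aeval_map_algebraMap, ← algebraMap_smul K b r, map_smul, Algebra.smul_def,
      ← IsScalarTower.algebraMap_apply] at this
  have h2 : aeval μ s' = algebraMap A F (c : A) * aeval μ s := by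
    have := congrArg (aeval μ) hc
    rwa [aeval_map_algebraMap, ← algebraMap_smul K c s, map_smul, Algebra.smul_def,
      ← IsScalarTower.algebraMap_apply] at this
  refine ⟨C (c : A) * r', C (b : A) * s', ?_⟩
  rw [map_mul, map_mul, aeval_C, aeval_C, h1, h2]
  by_cases hs : aeval μ s = 0
  · simp [hs]
  · field_simp

private theorem adjoin_gen_eq_top (F : Type*) {M : Type*} [Field F] [Field M] [Algebra F M] (α : M) :
    IntermediateField.adjoin F {IntermediateField.AdjoinSimple.gen F α}
      = (⊤ : IntermediateField F (IntermediateField.adjoin F {α})) := by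
  apply IntermediateField.lift_injective
  rw [IntermediateField.lift_adjoin_simple, IntermediateField.lift_top]
  rfl

theorem nonempty_coverData {A K L : Type v} {E : Type u} [CommRing A] [IsDomain A]
    [IsDiscreteValuationRing A] [Field K] [CharZero K] [Field L] [Field E] [Algebra A K]
    [IsFractionRing A K] [Algebra A L] [Algebra K L] [IsScalarTower A K L] [Algebra L E]
    [Algebra K E] [IsScalarTower K L E] {x : L} (hx : IsCoord A x) (a : A) (m : ℕ) (hm : 0 < m) :
    Nonempty (CoverData A K L E x a m) := by
  classical
  obtain ⟨μΩ, hμΩ⟩ := IsAlgClosed.exists_pow_nat_eq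
    (algebraMap E (AlgebraicClosure E) (algebraMap L E (x - algebraMap A L a))) hm
  let E' := IntermediateField.adjoin E {μΩ}
  let μE : E' := IntermediateField.AdjoinSimple.gen E μΩ
  let aLE' : Algebra L E' := ((algebraMap E E').comp (algebraMap L E)).toAlgebra
  let aKE : Algebra K E' := ((algebraMap E E').comp (algebraMap K E)).toAlgebra
  have tLEE : IsScalarTower L E E' := IsScalarTower.of_algebraMap_eq (fun _ => rfl)
  have tKEE : IsScalarTower K E E' := IsScalarTower.of_algebraMap_eq (fun _ => rfl)
  let L' := IntermediateField.adjoin K {μE}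
  let μ : L' := IntermediateField.AdjoinSimple.gen K μE
  let aAL : Algebra A L' := ((algebraMap K L').comp (algebraMap A K)).toAlgebra
  have tAKL : IsScalarTower A K L' := IsScalarTower.of_algebraMap_eq (fun _ => rfl)
  have hKL : ∀ t : K, algebraMap L E' (algebraMap K L t) = algebraMap K E' t := by
    intro t
    show algebraMap E E' (algebraMap L E (algebraMap K L t)) = algebraMap E E' (algebraMap K E t)
    rw [← IsScalarTower.algebraMap_apply K L E]
  have hAK : ∀ t : A, algebraMap L E' (algebraMap A L t) = algebraMap K E' (algebraMap A K t) := by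
    intro t
    rw [IsScalarTower.algebraMap_apply A K L, hKL]
  have hμE : μE ^ m = algebraMap L E' (x - algebraMap A L a) := Subtype.ext hμΩ
  have hxeq : algebraMap L E' x = μE ^ m + algebraMap K E' (algebraMap A K a) := by
    rw [hμE, map_sub, hAK]
    ring
  have hxmem : algebraMap L E' x ∈ L' := by
    rw [hxeq]
    exact add_mem (pow_mem (IntermediateField.mem_adjoin_simple_self K μE) m)
      (L'.algebraMap_mem _)
  have hpoly : ∀ P : A[X], algebraMap L E' (aeval x P) ∈ L' := by
    intro P
    rw [aeval_def, hom_eval₂, eval₂_eq_sum_range]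
    refine sum_mem fun i _ => mul_mem ?_ (pow_mem hxmem i)
    rw [RingHom.comp_apply, hAK]
    exact L'.algebraMap_mem _
  have hmem : ∀ z : L, algebraMap L E' z ∈ L' := by
    intro z
    obtain ⟨P, Q, -, rfl⟩ := hx.exists_div z
    rw [map_div₀]
    exact div_mem (hpoly P) (hpoly Q)
  let aLL : Algebra L L' := ((algebraMap L E').codRestrict L' hmem).toAlgebra
  have tLLE : IsScalarTower L L' E' := IsScalarTower.of_algebraMap_eq (fun _ => rfl)
  have tALL : IsScalarTower A L L' :=
    IsScalarTower.of_algebraMap_eq (fun t => Subtype.ext (hAK t).symm)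
  have tKLL : IsScalarTower K L L' :=
    IsScalarTower.of_algebraMap_eq (fun t => Subtype.ext (hKL t).symm)
  have hpow : μ ^ m = algebraMap L L' x - algebraMap A L' a := by
    apply Subtype.ext
    show μE ^ m = algebraMap L E' x - algebraMap K E' (algebraMap A K a)
    rw [hxeq]
    ring
  have htrans : Transcendental A μ := by
    intro halg
    apply hx.trans
    have h1 : IsAlgebraic A (algebraMap L L' x) := by
      have h2 : algebraMap L L' x = μ ^ m + algebraMap A L' a := by
        rw [hpow]
        ring
      rw [h2]
      exact (halg.pow m).add (isAlgebraic_algebraMap a)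
    exact (isAlgebraic_algebraMap_iff (algebraMap L L').injective).1 h1
  have hfrac : IsFractionRing (Algebra.adjoin A {μ}) L' := by
    have hfaith : FaithfulSMul (Algebra.adjoin A {μ}) L' :=
      (faithfulSMul_iff_algebraMap_injective _ _).2 Subtype.val_injective
    refine @IsFractionRing.of_field _ _ _ _ _ hfaith ?_
    intro z
    have hz : z ∈ IntermediateField.adjoin K {μ} := by
      rw [adjoin_gen_eq_top K μE]
      trivial
    obtain ⟨P, Q, rfl⟩ := exists_div_of_mem_adjoin (A := A) hz
    exact ⟨⟨aeval μ P, aeval_mem_adjoin_singleton A _⟩,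
      ⟨aeval μ Q, aeval_mem_adjoin_singleton A _⟩, rfl⟩
  have htop : IntermediateField.adjoin E {algebraMap L' E' μ} = ⊤ := adjoin_gen_eq_top E μΩ
  exact ⟨{ L' := L', E' := E', μ := μ, isCover := ⟨hpow, ⟨htrans, hfrac⟩, htop⟩ }⟩

end Fermat.Agent.KLB
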