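import Fermat.Agent.KLB.Tame.Defs

/-!
# KL-B tame layer, node COVFIN
Finiteness of the cover and its degree.
-/

namespace Fermat.Agent.KLB

open AlgebraicCurve Polynomial

/-- Kummer theory without irreducibility: if `F` contains a primitive `m`-th root of unity and
`M = F(α)` with `α ^ m ∈ F`, then `[M : F]` divides `m`. -/
theorem finrank_dvd_of_pow_eq {F M : Type*} [Field F] [Field M] [Algebra F M] [CharZero F]
    {m : ℕ} {ζ : F} (hζ : IsPrimitiveRoot ζ m) (hm : 0 < m) {α : M} {g : F}
    (hα : α ^ m = algebraMap F M g) (hα0 : α ≠ 0)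
    (htop : IntermediateField.adjoin F {α} = ⊤) : Module.finrank F M ∣ m := by
  have : NeZero m := ⟨hm.ne'⟩
  have hζ' : IsPrimitiveRoot (algebraMap F M ζ) m :=
    hζ.map_of_injective (algebraMap F M).injective
  have hint : IsIntegral F α := by
    refine ⟨X ^ m - C g, monic_X_pow_sub_C _ hm.ne', ?_⟩
    simp [hα]
  have hadj : Algebra.adjoin F {α} = ⊤ := by
    rw [← IntermediateField.adjoin_simple_toSubalgebra_of_isAlgebraic hint.isAlgebraic, htop]
    rfl
  have hsf : IsSplittingField F M (X ^ m - C g) := by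
    refine ⟨?_, ?_⟩
    · have := X_pow_sub_C_splits_of_isPrimitiveRoot hζ' hα
      simpa using this
    · rw [eq_top_iff, ← hadj]
      apply Algebra.adjoin_mono
      rintro _ rfl
      rw [mem_rootSet]
      refine ⟨(monic_X_pow_sub_C _ hm.ne').ne_zero, ?_⟩
      simp [hα]
  have : FiniteDimensional F M := IsSplittingField.finiteDimensional M (X ^ m - C g)
  have : Normal F M := Normal.of_isSplittingField (X ^ m - C g)
  have : IsGalois F M := ⟨⟩
  -- each automorphism acts on `α` through a root of unity of `F`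
  have key : ∀ σ : M ≃ₐ[F] M, ∃ η : F, σ α = algebraMap F M η * α := by
    intro σ
    have h1 : (σ α / α) ^ m = 1 := by
      rw [div_pow, ← map_pow, hα, AlgEquiv.commutes, div_self]
      rw [← hα]
      exact pow_ne_zero _ hα0
    obtain ⟨i, -, hi⟩ := hζ'.eq_pow_of_pow_eq_one h1
    refine ⟨ζ ^ i, ?_⟩
    rw [map_pow, hi, div_mul_cancel₀ _ hα0]
  have hσ0 : ∀ σ : M ≃ₐ[F] M, σ α / α ≠ 0 := fun σ =>
    div_ne_zero (by simpa using hα0) hα0
  let φ : (M ≃ₐ[F] M) →* Mˣ := MonoidHom.mk' (fun σ => Units.mk0 (σ α / α) (hσ0 σ)) (by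
    intro σ τ
    apply Units.ext
    obtain ⟨η, hη⟩ := key τ
    simp only [Units.val_mk0, Units.val_mul, AlgEquiv.mul_apply]
    rw [hη, map_mul, AlgEquiv.commutes]
    field_simp)
  have hinj : Function.Injective φ := by
    intro σ τ h
    have h1 : σ α / α = τ α / α := congrArg Units.val h
    have h2 : σ α = τ α := by
      rwa [div_left_inj' hα0] at h1
    have h3 : (σ : M →ₐ[F] M) = (τ : M →ₐ[F] M) := by
      apply AlgHom.ext_of_adjoin_eq_top hadj
      rintro _ rfl
      exact h2
    exact AlgEquiv.coe_toAlgHom_injective h3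
  have hrange : φ.range ≤ rootsOfUnity m M := by
    rintro _ ⟨σ, rfl⟩
    rw [mem_rootsOfUnity]
    apply Units.ext
    simp only [φ, MonoidHom.mk'_apply, Units.val_pow_eq_pow_val, Units.val_mk0, Units.val_one]
    rw [div_pow, ← map_pow, hα, AlgEquiv.commutes, div_self]
    rw [← hα]
    exact pow_ne_zero _ hα0
  rw [← IsGalois.card_aut_eq_finrank, Nat.card_congr (MonoidHom.ofInjective hinj).toEquiv]
  have := Subgroup.card_dvd_of_le hrange
  rwa [hζ'.card_rootsOfUnity] at this

variable {A K L E L' E' : Type*} [CommRing A] [IsDomain A] [IsDiscreteValuationRing A] [Field K]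
  [CharZero K] [Field L] [Field E] [Field L'] [Field E']
  [Algebra A K] [IsFractionRing A K] [Algebra A L] [Algebra K L] [IsScalarTower A K L]
  [Algebra L E] [Algebra K E] [IsScalarTower K L E] [FiniteDimensional L E]
  [Algebra A L'] [Algebra K L'] [IsScalarTower A K L'] [Algebra L L'] [IsScalarTower A L L']
  [IsScalarTower K L L']
  [Algebra E E'] [Algebra L' E'] [Algebra L E'] [Algebra K E'] [IsScalarTower L E E']
  [IsScalarTower L L' E'] [IsScalarTower K L' E'] [IsScalarTower K E E']
  {x : L} {a : A} {m : ℕ} {μ : L'}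

omit [IsDomain A] [IsDiscreteValuationRing A] [FiniteDimensional L E] in
theorem IsCover.pow_eq' (hcov : IsCover A (E := E) (E' := E') x a m μ) :
    algebraMap L' E' μ ^ m = algebraMap E E' (algebraMap L E (x - algebraMap A L a)) := by
  rw [← map_pow, hcov.pow_eq, ← IsScalarTower.algebraMap_apply L E E',
    IsScalarTower.algebraMap_apply L L' E', map_sub (algebraMap L L'),
    ← IsScalarTower.algebraMap_apply A L L']

theorem IsCover.finiteDimensional (hcov : IsCover A (E := E) (E' := E') x a m μ) (hm : 0 < m) :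
    FiniteDimensional E E' ∧ FiniteDimensional L' E' := by
  have hint : IsIntegral E (algebraMap L' E' μ) := by
    refine ⟨X ^ m - C (algebraMap L E (x - algebraMap A L a)), monic_X_pow_sub_C _ hm.ne', ?_⟩
    simp [hcov.pow_eq']
  have h1 : FiniteDimensional E E' := by
    have := IntermediateField.adjoin.finiteDimensional hint
    rw [hcov.top] at this
    exact Module.Finite.equiv (IntermediateField.topEquiv (F := E) (E := E')).toLinearEquiv
  refine ⟨h1, ?_⟩
  have : FiniteDimensional L E' := FiniteDimensional.trans L E E'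
  exact Module.Finite.of_restrictScalars_finite L L' E'

theorem IsCover.exists_inv_finrank (hcov : IsCover A (E := E) (E' := E') x a m μ)
    (hm : IsUnit (m : A)) (ζ : A) (hζ : IsPrimitiveRoot ζ m) :
    ∃ w : A, algebraMap A K w * (Module.finrank E E' : K) = 1 := by
  have hm0 : 0 < m := by
    rcases Nat.eq_zero_or_pos m with rfl | h
    · simp at hm
    · exact h
  have : CharZero E := charZero_of_injective_algebraMap (algebraMap K E).injective
  have hζE : IsPrimitiveRoot (algebraMap K E (algebraMap A K ζ)) m :=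
    (hζ.map_of_injective (IsFractionRing.injective A K)).map_of_injective
      (algebraMap K E).injective
  have hμ0 : algebraMap L' E' μ ≠ 0 := by
    rw [Ne, map_eq_zero]
    exact hcov.coord.ne_zero
  obtain ⟨d', hd'⟩ := finrank_dvd_of_pow_eq hζE hm0 hcov.pow_eq' hμ0 hcov.top
  obtain ⟨u, hu⟩ := hm.exists_right_inv
  refine ⟨d' * u, ?_⟩
  have h1 : ((d' : A) * u) * (Module.finrank E E' : A) = 1 := by
    rw [← hu, hd']
    push_cast
    ring
  have h2 := congrArg (algebraMap A K) h1
  simpa using h2

end Fermat.Agent.KLB
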