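import Fermat.Agent.KLB.Tame.Defs
import Fermat.Agent.KLB.Abs.Loc

/-!
# KL-B tame layer, node PLUMB
Comparison of integrality over `A[x]`, `A[μ]` and over the two Gauss rings.
Proofs: helper278.
-/

set_option linter.unusedSectionVars false

namespace Fermat.Agent.KLB

open AlgebraicCurve Polynomial

section PolyAux

variable {A : Type*} [CommRing A]

theorem C_dvd_iff_map_mk_eq_zero (π : A) (p : A[X]) :
    C π ∣ p ↔ p.map (Ideal.Quotient.mk (Ideal.span {π})) = 0 := by
  rw [C_dvd_iff_dvd_coeff, Polynomial.ext_iff]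
  simp only [coeff_map, coeff_zero, Ideal.Quotient.eq_zero_iff_mem, Ideal.mem_span_singleton]

theorem C_dvd_of_C_dvd_comp {π : A} (hπ : Prime π) {m : ℕ} (hm : 0 < m) (a : A) (p : A[X])
    (h : C π ∣ p.comp (X ^ m + C a)) : C π ∣ p := by
  have : (Ideal.span {π}).IsPrime := (Ideal.span_singleton_prime hπ.ne_zero).mpr hπ
  rw [C_dvd_iff_map_mk_eq_zero] at h ⊢
  rw [map_comp, comp_eq_zero_iff] at h
  rcases h with h | ⟨_, h⟩
  · exact h
  · exfalso
    have h1 := congrArg natDegree h
    rw [natDegree_C] at h1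
    simp only [Polynomial.map_add, Polynomial.map_pow, map_X, map_C] at h1
    rw [natDegree_X_pow_add_C] at h1
    omega

theorem exists_comp_eq_of_not_C_dvd {π : A} (hπ : (Ideal.span {π}).IsMaximal) (q D : A[X])
    (hD : ¬ C π ∣ D) :
    ∃ t b e : A[X], ¬ C π ∣ t ∧ t.comp q = D * b + C π * e := by
  let _ : Field (A ⧸ Ideal.span {π}) := Ideal.Quotient.field _
  set f := Ideal.Quotient.mk (Ideal.span {π}) with hf
  have hfs : Function.Surjective f := Ideal.Quotient.mk_surjective
  have hD' : D.map f ≠ 0 := fun h => hD ((C_dvd_iff_map_mk_eq_zero π D).mpr h)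
  have : Module.Finite (A ⧸ Ideal.span {π}) (AdjoinRoot (D.map f)) :=
    (AdjoinRoot.powerBasis hD').finite
  obtain ⟨t', ht, ht0⟩ := Algebra.IsIntegral.isIntegral (R := A ⧸ Ideal.span {π})
    (AdjoinRoot.mk (D.map f) (q.map f))
  have h1 : AdjoinRoot.mk (D.map f) (t'.comp (q.map f)) = 0 := by
    rw [← ht0, comp, Polynomial.hom_eval₂]
    congr 1
  rw [AdjoinRoot.mk_eq_zero] at h1
  obtain ⟨b', hb'⟩ := h1
  obtain ⟨t, rfl⟩ := Polynomial.map_surjective f hfs t'
  obtain ⟨b, rfl⟩ := Polynomial.map_surjective f hfs b'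
  have h2 : (t.comp q - D * b).map f = 0 := by
    rw [Polynomial.map_sub, map_comp, hb', Polynomial.map_mul, sub_self]
  obtain ⟨e, he⟩ := (C_dvd_iff_map_mk_eq_zero π _).mpr h2
  refine ⟨t, b, e, ?_, ?_⟩
  · intro h
    rw [C_dvd_iff_map_mk_eq_zero] at h
    exact ht.ne_zero h
  · rw [← he]; ring

end PolyAux

/-- an element of the Jacobson radical stays in the Jacobson radical of an integral extension -/
theorem isUnit_mul_add_one_of_isIntegral {R S : Type*} [CommRing R] [CommRing S] [Algebra R S]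
    [Algebra.IsIntegral R S] {r : R} (hr : ∀ y : R, IsUnit (r * y + 1)) (s : S) :
    IsUnit (algebraMap R S r * s + 1) := by
  by_contra h
  obtain ⟨M, hM, hmem⟩ := exists_max_ideal_of_mem_nonunits (mem_nonunits_iff.mpr h)
  have hmax := Ideal.isMaximal_comap_of_isIntegral_of_isMaximal (R := R) M
  have hr' : r ∈ Ideal.jacobson (⊥ : Ideal R) := Ideal.mem_jacobson_bot.mpr hr
  have h1 : r ∈ M.comap (algebraMap R S) := by
    rw [Ideal.jacobson, Ideal.mem_sInf] at hr'
    exact hr' ⟨bot_le, hmax⟩
  have h2 : algebraMap R S r ∈ M := h1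
  have h3 : (1 : S) ∈ M := by
    have := M.sub_mem hmem (M.mul_mem_right s h2)
    simpa using this
  exact hM.ne_top ((Ideal.eq_top_iff_one M).mpr h3)

theorem IsLocSub.isUnit_mul_add_one {S L : Type*} [CommRing S] [IsDomain S] [Field L] [Algebra S L]
    [IsFractionRing S L] {π : S} (hπ : Prime π) {O : Subring L} (hO : IsLocSub (ndvd hπ) O)
    (y : O) : IsUnit ((⟨algebraMap S L π, hO.algebraMap_mem π⟩ : O) * y + 1) := by
  obtain ⟨d, hd, s, hs⟩ := (hO y).mp y.2
  have hw : π * s + d ∈ ndvd hπ := by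
    intro h
    exact hd ((dvd_add_right (dvd_mul_right π s)).mp h)
  have hw0 : algebraMap S L (π * s + d) ≠ 0 := by
    intro h0
    have : π * s + d = 0 := IsFractionRing.injective S L (by rw [h0, map_zero])
    exact hw (this ▸ dvd_zero π)
  have hv : algebraMap S L d / algebraMap S L (π * s + d) ∈ O :=
    (hO _).mpr ⟨π * s + d, hw, d, mul_div_cancel₀ _ hw0⟩
  refine IsUnit.of_mul_eq_one (⟨_, hv⟩ : O) (Subtype.ext ?_)
  show (algebraMap S L π * (y : L) + 1) * (algebraMap S L d / algebraMap S L (π * s + d)) = 1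
  rw [mul_div_assoc', div_eq_one_iff_eq hw0, map_add, map_mul, ← hs]
  ring

variable {A K L E L' E' : Type*} [CommRing A] [IsDomain A] [IsDiscreteValuationRing A] [Field K]
  [CharZero K] [Field L] [Field E] [Field L'] [Field E']
  [Algebra A K] [IsFractionRing A K] [Algebra A L] [Algebra K L] [IsScalarTower A K L]
  [Algebra L E] [Algebra K E] [IsScalarTower K L E] [FiniteDimensional L E]
  [Algebra A L'] [Algebra K L'] [IsScalarTower A K L'] [Algebra L L'] [IsScalarTower A L L']
  [IsScalarTower K L L']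
  [Algebra E E'] [Algebra L' E'] [Algebra L E'] [Algebra K E'] [IsScalarTower L E E']
  [IsScalarTower L L' E'] [IsScalarTower K L' E'] [IsScalarTower K E E']
  {x : L} {a : A} {m : ℕ} {μ : L'}

/-- every element of (the image of) `A[μ]` is integral over `A[x]` -/
theorem IsCover.isIntegral_of_mem_adjoin (hcov : IsCover A (E := E) (E' := E') x a m μ) (hm : 0 < m)
    {s : L'} (hs : s ∈ Algebra.adjoin A {μ}) : IsIntegral (Algebra.adjoin A {x}) s := by
  have hA : ∀ r : A, IsIntegral (Algebra.adjoin A {x}) (algebraMap A L' r) := by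
    intro r
    have : algebraMap A L' r = algebraMap (Algebra.adjoin A {x}) L'
        (algebraMap A (Algebra.adjoin A {x}) r) := by
      show _ = algebraMap L L' (algebraMap A L r)
      rw [← IsScalarTower.algebraMap_apply]
    rw [this]
    exact isIntegral_algebraMap
  induction hs using Algebra.adjoin_induction with
  | mem y hy =>
    rw [Set.mem_singleton_iff] at hy
    subst hy
    refine IsIntegral.of_pow hm ?_
    rw [hcov.pow_eq]
    refine IsIntegral.sub ?_ (hA a)
    exact isIntegral_algebraMap (R := Algebra.adjoin A {x})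
      (x := (⟨x, Algebra.self_mem_adjoin_singleton A x⟩ : Algebra.adjoin A {x}))
  | algebraMap r => exact hA r
  | add y z _ _ hy hz => exact hy.add hz
  | mul y z _ _ hy hz => exact hy.mul hz

theorem IsCover.isIntegral_adjoin (hcov : IsCover A (E := E) (E' := E') x a m μ) (hm : 0 < m)
    (y : E') (hy : IsIntegral (Algebra.adjoin A {μ}) y) : IsIntegral (Algebra.adjoin A {x}) y := by
  have h : ∀ s : Algebra.adjoin A {μ}, algebraMap (Algebra.adjoin A {μ}) E' s ∈
      (integralClosure (Algebra.adjoin A {x}) E').toSubring := by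
    intro s
    have h1 := hcov.isIntegral_of_mem_adjoin hm s.2
    have h2 : IsIntegral (Algebra.adjoin A {x}) (algebraMap L' E' (s : L')) := by
      have : IsScalarTower (Algebra.adjoin A {x}) L' E' := IsScalarTower.of_algebraMap_eq fun r => by
        show algebraMap L E' r = algebraMap L' E' (algebraMap L L' r)
        rw [← IsScalarTower.algebraMap_apply]
      exact h1.algebraMap
    exact h2
  obtain ⟨p, hp, hp0⟩ := hy
  let f : Algebra.adjoin A {μ} →+* integralClosure (Algebra.adjoin A {x}) E' :=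
    (algebraMap (Algebra.adjoin A {μ}) E').codRestrict
      (integralClosure (Algebra.adjoin A {x}) E').toSubring h
  have hy' : IsIntegral (integralClosure (Algebra.adjoin A {x}) E') y := by
    refine ⟨p.map f, hp.map f, ?_⟩
    rw [eval₂_map]
    exact hp0
  exact isIntegral_trans y hy'

/-- `p(x) = (p ∘ (X ^ m + a))(μ)` -/
theorem IsCover.aeval_comp_cover (hcov : IsCover A (E := E) (E' := E') x a m μ) (p : A[X]) :
    aeval μ (p.comp (X ^ m + C a)) = algebraMap L L' (aeval x p) := by
  rw [Polynomial.aeval_comp]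
  simp only [map_add, map_pow, aeval_X, aeval_C]
  rw [hcov.pow_eq, sub_add_cancel, aeval_algebraMap_apply]

theorem IsCover.exists_lift (hcov : IsCover A (E := E) (E' := E') x a m μ) (hx : IsCoord A x)
    (hm : 0 < m) {π : A} (hπ : Irreducible π) (s : Algebra.adjoin A {x}) :
    ∃ s' : Algebra.adjoin A {μ}, algebraMap _ L' s' = algebraMap L L' s ∧
      (¬ algebraMap A _ π ∣ s → ¬ algebraMap A _ π ∣ s') := by
  obtain ⟨p, rfl⟩ := (polyEquiv hx.trans).surjective s
  refine ⟨polyEquiv hcov.coord.trans (p.comp (X ^ m + C a)), ?_, ?_⟩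
  · show ((polyEquiv hcov.coord.trans (p.comp (X ^ m + C a)) : Algebra.adjoin A {μ}) : L') = _
    rw [coe_polyEquiv, coe_polyEquiv, hcov.aeval_comp_cover]
  · intro h h'
    rw [hx.dvd_iff] at h
    rw [hcov.coord.dvd_iff] at h'
    exact h (C_dvd_of_C_dvd_comp hπ.prime hm a p h')

/-- the inverse of an element of `A[μ]` prime to `π` is integral over the Gauss ring of `K(x)` -/
theorem IsCover.isIntegral_inv_of_not_dvd (hcov : IsCover A (E := E) (E' := E') x a m μ)
    (hx : IsCoord A x) (hm : 0 < m) {π : A} (hπ : Irreducible π) {Og : Subring L}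
    (hOg : IsLocSub (ndvd (hx.prime hπ)) Og) (d' : Algebra.adjoin A {μ})
    (hd' : ¬ algebraMap A _ π ∣ d') : IsIntegral Og ((d' : L')⁻¹) := by
  have := hx.frac
  obtain ⟨D, rfl⟩ := (polyEquiv hcov.coord.trans).surjective d'
  rw [hcov.coord.dvd_iff] at hd'
  rw [coe_polyEquiv]
  have hmax : (Ideal.span {π}).IsMaximal := by
    rw [← (IsDiscreteValuationRing.irreducible_iff_uniformizer π).mp hπ]
    infer_instance
  obtain ⟨t, b, e, ht, h⟩ := exists_comp_eq_of_not_C_dvd hmax (X ^ m + C a) D hd'
  have h1 : algebraMap L L' (aeval x t) =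
      aeval μ D * aeval μ b + algebraMap A L' π * aeval μ e := by
    rw [← hcov.aeval_comp_cover, h]
    simp
  -- integrality of the elements of `A[μ]`
  have hint : ∀ p : A[X], IsIntegral Og (aeval μ p) := fun p =>
    hOg.isIntegral_of (hcov.isIntegral_of_mem_adjoin hm (aeval_mem_adjoin_singleton A μ))
  -- `t(x)` is a unit of `Og`
  have ht' : polyEquiv hx.trans t ∈ ndvd (hx.prime hπ) := fun hd => ht ((hx.dvd_iff t).mp hd)
  have htinv : (aeval x t)⁻¹ ∈ Og := by
    have := hOg.inv_mem ht'
    rwa [show algebraMap (Algebra.adjoin A {x}) L (polyEquiv hx.trans t) = aeval x t from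
      coe_polyEquiv hx.trans t] at this
  have ht0 : aeval x t ≠ 0 := by
    intro h0
    have : t = 0 := aeval_injective_of_transcendental hx.trans (by rw [h0, map_zero])
    exact ht (this ▸ dvd_zero _)
  have ht0' : algebraMap L L' (aeval x t) ≠ 0 := by
    rwa [Ne, map_eq_zero]
  have hτ : IsIntegral Og (algebraMap L L' (aeval x t))⁻¹ := by
    have : (algebraMap L L' (aeval x t))⁻¹ = algebraMap Og L' ⟨_, htinv⟩ := by
      show _ = algebraMap L L' (aeval x t)⁻¹
      rw [map_inv₀]
    rw [this]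
    exact isIntegral_algebraMap
  let DC : integralClosure Og L' := ⟨aeval μ D, hint D⟩
  let bC : integralClosure Og L' := ⟨(algebraMap L L' (aeval x t))⁻¹ * aeval μ b, hτ.mul (hint b)⟩
  let eC : integralClosure Og L' :=
    ⟨-((algebraMap L L' (aeval x t))⁻¹ * aeval μ e), (hτ.mul (hint e)).neg⟩
  have hU := isUnit_mul_add_one_of_isIntegral (R := Og) (S := integralClosure Og L')
    (hOg.isUnit_mul_add_one (hx.prime hπ)) eC
  have hprod : DC * bC = algebraMap Og (integralClosure Og L')
      ⟨algebraMap (Algebra.adjoin A {x}) L (algebraMap A _ π), hOg.algebraMap_mem _⟩ * eC + 1 := by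
    apply Subtype.ext
    show aeval μ D * ((algebraMap L L' (aeval x t))⁻¹ * aeval μ b) =
      algebraMap L L' (algebraMap A L π) * (-((algebraMap L L' (aeval x t))⁻¹ * aeval μ e)) + 1
    rw [← IsScalarTower.algebraMap_apply]
    field_simp
    rw [h1]
    ring
  rw [← hprod] at hU
  obtain ⟨v, hv⟩ := (isUnit_of_mul_isUnit_left hU).exists_right_inv
  have hv' : aeval μ D * (v : L') = 1 := congrArg Subtype.val hv
  rw [← eq_inv_of_mul_eq_one_right hv']
  exact v.2

theorem IsCover.isIntegral_gauss_iff (hcov : IsCover A (E := E) (E' := E') x a m μ)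
    (hx : IsCoord A x) (hm : 0 < m)
    {π : A} (hπ : Irreducible π) {Og : Subring L} (hOg : IsLocSub (ndvd (hx.prime hπ)) Og)
    {Og' : Subring L'} (hOg' : IsLocSub (ndvd (hcov.coord.prime hπ)) Og') (y : E') :
    IsIntegral Og' y ↔ IsIntegral Og y := by
  have := hx.frac
  have := hcov.coord.frac
  constructor
  · intro hy
    have hT : ndvd (hcov.coord.prime hπ) ≤ nonZeroDivisors (Algebra.adjoin A {μ}) := by
      intro d hd
      apply mem_nonZeroDivisors_of_ne_zero
      rintro rfl
      exact hd (dvd_zero _)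
    obtain ⟨d, hd, hdy⟩ := (hOg'.isIntegral_iff hT y).mp hy
    have h1 : IsIntegral Og (algebraMap (Algebra.adjoin A {μ}) E' d * y) :=
      hOg.isIntegral_of (hcov.isIntegral_adjoin hm _ hdy)
    have h2 : IsIntegral Og ((d : L')⁻¹) := hcov.isIntegral_inv_of_not_dvd hx hm hπ hOg d hd
    have : IsScalarTower Og L' E' := IsScalarTower.of_algebraMap_eq fun r => by
      show algebraMap L E' r = algebraMap L' E' (algebraMap L L' r)
      rw [← IsScalarTower.algebraMap_apply]
    have h3 : IsIntegral Og (algebraMap L' E' ((d : L')⁻¹)) := h2.algebraMap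
    have hd0 : (d : L') ≠ 0 := by
      intro h0
      have : d = 0 := Subtype.ext h0
      exact hd (this ▸ dvd_zero _)
    have h4 : algebraMap L' E' ((d : L')⁻¹) * (algebraMap (Algebra.adjoin A {μ}) E' d * y) = y := by
      show algebraMap L' E' ((d : L')⁻¹) * (algebraMap L' E' (d : L') * y) = y
      rw [← mul_assoc, ← map_mul, inv_mul_cancel₀ hd0, map_one, one_mul]
    rw [← h4]
    exact h3.mul h1
  · intro hy
    have hmem : ∀ r : Og, algebraMap L L' r ∈ Og' := by
      intro r
      obtain ⟨d, hd, s, hs⟩ := (hOg r).mp r.2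
      obtain ⟨d', hd1, hd2⟩ := hcov.exists_lift hx hm hπ d
      obtain ⟨s', hs1, -⟩ := hcov.exists_lift hx hm hπ s
      refine (hOg' _).mpr ⟨d', hd2 hd, s', ?_⟩
      rw [hd1, hs1, ← map_mul]
      exact congrArg _ hs
    obtain ⟨p, hp, hp0⟩ := hy
    let f : Og →+* Og' := ((algebraMap L L').comp Og.subtype).codRestrict Og' hmem
    refine ⟨p.map f, hp.map f, ?_⟩
    rw [eval₂_map]
    have hf : (algebraMap Og' E').comp f = algebraMap Og E' := by
      ext r
      show algebraMap L' E' (algebraMap L L' r) = algebraMap L E' r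
      rw [← IsScalarTower.algebraMap_apply]
    rw [hf]
    exact hp0

end Fermat.Agent.KLB
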