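import Fermat.Agent.KLB.Abs.Poly
import Fermat.Prelude.Def_AlgebraicCurve_DivisorClassGroup

/-!
# KL-B, tame layer: definitions  (owner helper97)

* `PlaceOver v w e`: the place `w` of `E'` lies over the place `v` of `E`, with ramification
  index `e` (the constant fields are allowed to differ).
* `HT K x c m`: the horizontal hypotheses on the function field `E / K` relative to the
  coordinate `x`: unramified outside `x ∈ c ∪ {∞}`, ramification indices dividing `m` there.
* `IsCover`: `E' = E(μ)`, `L' = K(μ)`, `μ ^ m = x - a`.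
-/

namespace Fermat.Agent.KLB

open AlgebraicCurve Polynomial

/-- `w` lies over `v` with ramification index `e`. -/
def PlaceOver {K K' E E' : Type*} [Field K] [Field K'] [Field E] [Field E'] [Algebra K E]
    [Algebra K' E'] [Algebra E E'] (v : Place K E) (w : Place K' E') (e : ℕ) : Prop :=
  0 < e ∧ ∀ f : E, w.ord (algebraMap E E' f) = e * v.ord f

/-- Horizontal hypotheses: `E / K(x)` is unramified outside `x ∈ c ∪ {∞}` and the ramification
indices over these points divide `m`. -/
structure HT (K : Type*) {E : Type*} [Field K] [Field E] [Algebra K E] (x : E) (c : Set K)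
    (m : ℕ) : Prop where
  unram : ∀ (v : Place K E) (G : K[X]), Irreducible G → (∀ a ∈ c, G.eval a ≠ 0) →
    v.ord (aeval x G) ≤ 1
  tame : ∀ (v : Place K E), ∀ a ∈ c, 0 < v.ord (x - algebraMap K E a) →
    v.ord (x - algebraMap K E a) ∣ (m : ℤ)
  tame_inf : ∀ v : Place K E, v.ord x < 0 → v.ord x ∣ (m : ℤ)

/-- `E / K(t)` is unramified at all places where `t` is finite and `κ` is a unit. -/
def HUnr (K : Type*) {E : Type*} [Field K] [Field E] [Algebra K E] (t κ : E) : Prop :=
  ∀ (v : Place K E) (G : K[X]), Irreducible G → 0 ≤ v.ord t → v.ord κ = 0 →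
    v.ord (aeval t G) ≤ 1

/-- The Kummer cover `E' = E(μ)`, `L' = K(μ)`, `μ ^ m = x - a`. -/
structure IsCover (A : Type*) {L E L' E' : Type*} [CommRing A] [Field L] [Field E] [Field L']
    [Field E'] [Algebra A L] [Algebra A L'] [Algebra L E] [Algebra L L'] [Algebra E E']
    [Algebra L' E'] (x : L) (a : A) (m : ℕ) (μ : L') : Prop where
  pow_eq : μ ^ m = algebraMap L L' x - algebraMap A L' a
  coord : IsCoord A μ
  top : IntermediateField.adjoin E {algebraMap L' E' μ} = ⊤

end Fermat.Agent.KLB
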