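import Fermat.Agent.KLB.Tame.Defs
import Fermat.Agent.S24.FFBasic

/-!
# KL-B tame layer, node DEG
The ramification index is at most the degree.
-/

namespace Fermat.Agent.KLB

open AlgebraicCurve Polynomial

/-- A finite sum of terms each of which is zero or of order `> n` is zero or of order `> n`. -/
theorem Place.sum_eq_zero_or_lt_ord {K F ι : Type*} [Field K] [Field F] [Algebra K F]
    (v : Place K F) (s : Finset ι) (g : ι → F) (n : ℤ)
    (h : ∀ i ∈ s, g i = 0 ∨ n < v.ord (g i)) :
    ∑ i ∈ s, g i = 0 ∨ n < v.ord (∑ i ∈ s, g i) := by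
  classical
  induction s using Finset.induction_on with
  | empty => left; simp
  | insert a s ha ih =>
    rw [Finset.sum_insert ha]
    by_cases h0 : g a + ∑ i ∈ s, g i = 0
    · exact Or.inl h0
    right
    have h1 := S24.FF.min_ord_le_ord_add v h0
    rcases h a (Finset.mem_insert_self _ _) with ha0 | ha0
    · rcases ih (fun i hi => h i (Finset.mem_insert_of_mem hi)) with hs | hs
      · simp [ha0, hs] at h0
      · simpa [ha0] using hs
    · rcases ih (fun i hi => h i (Finset.mem_insert_of_mem hi)) with hs | hs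
      · simpa [hs] using ha0
      · exact lt_of_lt_of_le (lt_min ha0 hs) h1

variable {K E E' : Type*} [Field K] [Field E] [Field E'] [Algebra K E] [Algebra K E']
  [Algebra E E'] [IsScalarTower K E E']

theorem PlaceOver.le_finrank [FiniteDimensional E E'] {v : Place K E} {w : Place K E'} {e : ℕ}
    (h : PlaceOver v w e) : e ≤ Module.finrank E E' := by
  classical
  obtain ⟨he, hord⟩ := h
  obtain ⟨ϖ, hϖ⟩ := S24.FF.exists_ord_eq_one w
  have hϖ0 : ϖ ≠ 0 := S24.FF.ne_zero_of_ord_ne_zero w (by rw [hϖ]; exact one_ne_zero)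
  have hterm : ∀ (a : E) (i : ℕ), a ≠ 0 → w.ord (a • ϖ ^ i) = e * v.ord a + i := by
    intro a i ha
    rw [Algebra.smul_def, w.ord_mul ((_root_.map_ne_zero _).mpr ha) (pow_ne_zero _ hϖ0), hord,
      S24.FF.ord_pow, hϖ, mul_one]
  have hli : LinearIndependent E (fun i : Fin e => ϖ ^ (i : ℕ)) := by
    rw [Fintype.linearIndependent_iff]
    intro g hg
    by_contra hne
    push Not at hne
    obtain ⟨j, hj⟩ := hne
    have hT : (Finset.univ.filter (fun i : Fin e => g i ≠ 0)).Nonempty :=
      ⟨j, by simpa using hj⟩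
    obtain ⟨i₀, hi₀, hmin⟩ :=
      Finset.exists_min_image _ (fun i : Fin e => w.ord (g i • ϖ ^ (i : ℕ))) hT
    have hi₀' : g i₀ ≠ 0 := by simpa using hi₀
    have hrest := Place.sum_eq_zero_or_lt_ord w (Finset.univ.erase i₀)
      (fun i : Fin e => g i • ϖ ^ (i : ℕ)) (w.ord (g i₀ • ϖ ^ (i₀ : ℕ))) (by
        intro i hi
        by_cases hgi : g i = 0
        · left; simp [hgi]
        right
        have hle := hmin i (by simpa using hgi)
        refine lt_of_le_of_ne hle ?_
        intro heq
        rw [hterm _ _ hi₀', hterm _ _ hgi] at heq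
        have hii : (i : ℕ) = (i₀ : ℕ) := by
          have h1 : ((i₀ : ℕ) : ℤ) % e = ((i : ℕ) : ℤ) % e := by
            have := congrArg (· % (e : ℤ)) heq
            simpa [Int.add_mul_emod_self_left, Int.add_emod] using this
          have h2 : ((i₀ : ℕ) : ℤ) % e = (i₀ : ℕ) :=
            Int.emod_eq_of_lt (by positivity) (by exact_mod_cast i₀.2)
          have h3 : ((i : ℕ) : ℤ) % e = (i : ℕ) :=
            Int.emod_eq_of_lt (by positivity) (by exact_mod_cast i.2)
          rw [h2, h3] at h1
          exact_mod_cast h1.symm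
        exact (Finset.ne_of_mem_erase hi) (Fin.ext hii))
    have hsplit := Finset.add_sum_erase Finset.univ (fun i : Fin e => g i • ϖ ^ (i : ℕ))
      (Finset.mem_univ i₀)
    rw [hg] at hsplit
    have ht0 : g i₀ • ϖ ^ (i₀ : ℕ) ≠ 0 := smul_ne_zero hi₀' (pow_ne_zero _ hϖ0)
    rcases hrest with hr | hr
    · rw [hr, add_zero] at hsplit
      exact ht0 hsplit
    · have := eq_neg_of_add_eq_zero_left hsplit
      rw [this, S24.FF.ord_neg] at hr
      exact lt_irrefl _ hr
  simpa using hli.fintype_card_le_finrank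

end Fermat.Agent.KLB
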