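import Fermat.Agent.KLB.Tame.Defs
import Fermat.Agent.S24.FFDict

/-!
# KL-B tame layer, node DIFF  (owner helper125)
Trivial codifferent over the valuation ring of `v` => every place over `v` is unramified.
-/

namespace Fermat.Agent.KLB

open AlgebraicCurve Polynomial IsDedekindDomain

variable {K E E' : Type*} [Field K] [Field E] [Field E'] [Algebra K E] [Algebra K E']
  [Algebra E E'] [IsScalarTower K E E']

theorem PlaceOver.eq_one_of_unr [CharZero K] [FiniteDimensional E E'] {v : Place K E}
    {w : Place K E'} {e : ℕ} (h : PlaceOver v w e) (hu : Unr v.toValuationSubring E E') :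
    e = 1 := by
  have : CharZero E := charZero_of_injective_algebraMap (algebraMap K E).injective
  let A := v.toValuationSubring
  let B := integralClosure A E'
  have : IsDedekindDomain B := integralClosure.isDedekindDomain A E E'
  have : IsFractionRing B E' := integralClosure.isFractionRing_of_finite_extension E E'
  have : Module.Finite A B := IsIntegralClosure.finite A E E' B
  have : Module.IsTorsionFree A E' := .trans_faithfulSMul A E E'
  have : Module.IsTorsionFree A B := IsIntegralClosure.isTorsionFree A E'
  let _ : Algebra K B := ((algebraMap A B).comp (algebraMap K A)).toAlgebra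
  have : IsScalarTower K B E' := IsScalarTower.of_algebraMap_eq fun a => by
    rw [IsScalarTower.algebraMap_apply K E E']
    rfl
  -- the different is trivial
  have hdual : Submodule.traceDual A E (1 : Submodule B E') = 1 := by
    apply le_antisymm _ Submodule.one_le_traceDual_one
    intro y hy
    rw [Submodule.mem_traceDual_iff_isIntegral] at hy
    have hy' : IsIntegral A y := by
      apply hu y
      intro z hz
      apply hy z
      rw [Submodule.mem_one]
      exact ⟨⟨z, hz⟩, rfl⟩
    rw [Submodule.mem_one]
    exact ⟨⟨y, hy'⟩, rfl⟩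
  have hdiff : differentIdeal A B = ⊤ := by
    have h1 := coeSubmodule_differentIdeal A E (L := E') (B := B)
    have h2 : (1 : Submodule B E') / 1 = 1 :=
      le_antisymm (by simpa using Submodule.mul_one_div_le_one (I := (1 : Submodule B E')))
        (Submodule.one_le_one_div.mpr le_rfl)
    rw [hdual, h2] at h1
    apply IsFractionRing.coeSubmodule_injective B E'
    rw [h1, IsLocalization.coeSubmodule_top]
  -- `B ⊆ O_w`
  have hA : ∀ a : A, algebraMap A E' a ∈ w.toValuationSubring := by
    intro a
    apply Fermat.Agent.S24.FF.mem_of_ord_nonneg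
    have h1 : algebraMap A E' a = algebraMap E E' (a : E) := rfl
    rw [h1, h.2]
    have := Fermat.Agent.S24.FF.ord_nonneg_of_mem v a.2
    positivity
  have hB : ∀ b : B, algebraMap B E' b ∈ w.toValuationSubring := by
    intro b
    have hb : IsIntegral A (b : E') := b.2
    let _ : Algebra A w.toValuationSubring :=
      ((algebraMap A E').codRestrict w.toValuationSubring.toSubring hA).toAlgebra
    have : IsScalarTower A w.toValuationSubring E' :=
      IsScalarTower.of_algebraMap_eq fun f => rfl
    have hx : IsIntegral w.toValuationSubring (b : E') := hb.tower_top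
    obtain ⟨y, hy⟩ := IsIntegrallyClosed.isIntegral_iff.mp hx
    have h3 : algebraMap B E' b = (y : E') := hy.symm
    rw [h3]
    exact y.2
  let P := Fermat.Agent.S24.FF.primeOfPlace w hB
  have hP : Place.ofHeightOneSpectrum (K := K) P = w :=
    Fermat.Agent.S24.FF.ofHeightOneSpectrum_primeOfPlace w hB
  obtain ⟨ϖ, hϖ⟩ := IsDiscreteValuationRing.exists_irreducible A
  have hmax : IsLocalRing.maximalIdeal A = Ideal.span {ϖ} := hϖ.maximalIdeal_eq
  have hord : w.ord (algebraMap B E' (algebraMap A B ϖ)) = e := by
    have h1 : algebraMap B E' (algebraMap A B ϖ) = algebraMap E E' (ϖ : E) := rfl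
    rw [h1, h.2, v.ord_coe_irreducible hϖ, mul_one]
  have hmem : algebraMap A B ϖ ∈ P.asIdeal ^ e := by
    rw [← hP, Fermat.Agent.S24.FF.ord_ofHeightOneSpectrum, HeightOneSpectrum.valuation_of_algebraMap] at hord
    rw [← HeightOneSpectrum.intValuation_le_pow_iff_mem]
    have h0 : P.intValuation (algebraMap A B ϖ) ≠ 0 := by
      apply HeightOneSpectrum.intValuation_ne_zero
      intro h4
      exact hϖ.ne_zero ((FaithfulSMul.algebraMap_injective A B) (h4.trans (map_zero _).symm))
    rw [← WithZero.exp_log h0, WithZero.exp_le_exp]
    omega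
  have hdvd : P.asIdeal ^ e ∣ (IsLocalRing.maximalIdeal A).map (algebraMap A B) := by
    rw [hmax, Ideal.map_span, Set.image_singleton, Ideal.dvd_span_singleton]
    exact hmem
  have hne : IsLocalRing.maximalIdeal A ≠ ⊥ := IsDiscreteValuationRing.not_a_field A
  have key := pow_sub_one_dvd_differentIdeal_aux A E E' P.asIdeal h.1.ne' hne hdvd
  rw [hdiff, Ideal.dvd_iff_le, top_le_iff] at key
  by_contra hne1
  have he1 : e - 1 ≠ 0 := by have := h.1; omega
  have h5 : P.asIdeal = ⊤ := by
    rw [Ideal.eq_top_iff_one] at key ⊢
    exact Ideal.pow_le_self he1 key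
  exact P.isPrime.ne_top h5

end Fermat.Agent.KLB
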