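import Fermat.Agent.KLB.Tame.Defs
import Fermat.Agent.S24.FFSum

/-!
# KL-B tame layer, node EXT
Extension of a place along an algebraic extension of the constant field.
(statement: helper97; proof: helper196)
-/

set_option linter.style.haveILetI false

namespace Fermat.Agent.KLB

open AlgebraicCurve Polynomial IsDedekindDomain IntermediateField
open scoped IntermediateField.algebraAdjoinAdjoin

/-- A valuation subring contains every element integral over a ring mapping into it. -/
theorem ext_mem_of_isIntegral {R L : Type*} [CommRing R] [Field L] [Algebra R L]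
    (W : ValuationSubring L) (hR : ∀ r : R, algebraMap R L r ∈ W) {b : L}
    (hb : IsIntegral R b) : b ∈ W := by
  letI : Algebra R W := ((algebraMap R L).codRestrict W.toSubring hR).toAlgebra
  letI : IsScalarTower R W L := IsScalarTower.of_algebraMap_eq fun f => rfl
  have hx : IsIntegral W b := hb.tower_top
  obtain ⟨y, hy⟩ := IsIntegrallyClosed.isIntegral_iff.mp hx
  exact hy ▸ y.2

/-- A proper valuation subring of a function field containing the constants and a Dedekind model
is the valuation subring of a place. -/
theorem ext_exists_place_of_dedekind {K F B : Type*} [Field K] [Field F] [Algebra K F]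
    [CommRing B] [IsDedekindDomain B] [Algebra B F] [IsFractionRing B F]
    [Algebra K B] [IsScalarTower K B F] (W : ValuationSubring F) (hW : W ≠ ⊤)
    (hB : ∀ b : B, algebraMap B F b ∈ W) :
    ∃ w : Place K F, w.toValuationSubring = W := by
  classical
  let g : B →+* W := (algebraMap B F).codRestrict W.toSubring hB
  have hunit : ∀ b : B, g b ∉ IsLocalRing.maximalIdeal W → (algebraMap B F b)⁻¹ ∈ W := by
    intro b hb
    rw [IsLocalRing.mem_maximalIdeal, mem_nonunits_iff, not_not] at hb
    obtain ⟨c, hc⟩ := isUnit_iff_exists_inv.mp hb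
    have hc' : algebraMap B F b * (c : F) = 1 := congrArg Subtype.val hc
    rw [← eq_inv_of_mul_eq_one_right hc']
    exact c.2
  let P : HeightOneSpectrum B :=
    { asIdeal := (IsLocalRing.maximalIdeal W).comap g
      isPrime := Ideal.comap_isPrime _ _
      ne_bot := by
        intro hbot
        apply hW
        refine SetLike.ext fun x => ⟨fun _ => ValuationSubring.mem_top x, fun _ => ?_⟩
        obtain ⟨a, s, hs, rfl⟩ := IsFractionRing.div_surjective (A := B) x
        rw [div_eq_mul_inv]
        refine mul_mem (hB a) (hunit s ?_)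
        intro hmem
        have : s ∈ (IsLocalRing.maximalIdeal W).comap g := hmem
        rw [hbot] at this
        exact nonZeroDivisors.ne_zero hs (by simpa using this) }
  refine ⟨Place.ofHeightOneSpectrum (K := K) P, ?_⟩
  rw [Place.ofHeightOneSpectrum_toValuationSubring,
    ← HeightOneSpectrum.valuationSubringAtPrime_eq_valuationSubring]
  refine ValuationSubring.eq_of_le_of_ne_top _ ?_ hW
  rw [HeightOneSpectrum.valuationSubringAtPrime_eq_valuationSubring]
  intro x hx
  rw [Valuation.mem_valuationSubring_iff] at hx
  obtain ⟨n, d, hnd⟩ := P.exists_primeCompl_mul_eq_of_integer x hx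
  have hd : (d : B) ∉ P.asIdeal := d.2
  have hdinv : (algebraMap B F d)⁻¹ ∈ W := hunit d hd
  have hd0 : algebraMap B F d ≠ 0 := by
    intro h0
    apply hd
    have : (d : B) = 0 := (IsFractionRing.injective B F) (by rw [h0, map_zero])
    rw [this]; exact zero_mem _
  have : x = algebraMap B F n * (algebraMap B F d)⁻¹ := by
    rw [← hnd]; field_simp
  rw [this]
  exact mul_mem (hB n) hdinv

/-- A proper valuation subring of a function field over an algebraically closed field of
characteristic zero which contains the constants is the valuation subring of a place. -/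
theorem ext_exists_place {K' E' : Type*} [Field K'] [Field E'] [Algebra K' E']
    [IsAlgClosed K'] [CharZero K'] [Fermat.Agent.S24.FF.IsFF1 K' E']
    (W : ValuationSubring E') (hK' : ∀ a : K', algebraMap K' E' a ∈ W) (t' : E') (htW : t' ∈ W)
    (hWtop : W ≠ ⊤) (htr : Transcendental K' t') :
    ∃ w : Place K' E', w.toValuationSubring = W := by
  haveI : FiniteDimensional K'⟮t'⟯ E' := Fermat.Agent.S24.FF.IsFF1.finite t' htr
  haveI := Fermat.Agent.S24.FF.isPrincipalIdealRing_adjoin t' htr
  haveI : CharZero K'⟮t'⟯ := charZero_of_injective_algebraMap (algebraMap K' K'⟮t'⟯).injective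
  haveI : IsDedekindDomain (integralClosure (Algebra.adjoin K' {t'}) E') :=
    integralClosure.isDedekindDomain (Algebra.adjoin K' {t'}) K'⟮t'⟯ E'
  haveI : IsFractionRing (integralClosure (Algebra.adjoin K' {t'}) E') E' :=
    integralClosure.isFractionRing_of_finite_extension K'⟮t'⟯ E'
  have hadj : ∀ a : Algebra.adjoin K' {t'}, algebraMap (Algebra.adjoin K' {t'}) E' a ∈ W := by
    rintro ⟨a, ha⟩
    show a ∈ W
    induction ha using Algebra.adjoin_induction with
    | mem x hx =>
      rw [Set.mem_singleton_iff] at hx
      subst hx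
      exact htW
    | algebraMap r => exact hK' r
    | add x y _ _ hx hy => exact add_mem hx hy
    | mul x y _ _ hx hy => exact mul_mem hx hy
  have hB : ∀ b : integralClosure (Algebra.adjoin K' {t'}) E',
      algebraMap (integralClosure (Algebra.adjoin K' {t'}) E') E' b ∈ W := by
    intro b
    exact ext_mem_of_isIntegral W hadj b.2
  exact ext_exists_place_of_dedekind (K := K')
    (B := integralClosure (Algebra.adjoin K' {t'}) E') W hWtop hB

variable {K K' E E' : Type*} [Field K] [Field K'] [Field E] [Field E'] [Algebra K E]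
  [Algebra K' E'] [Algebra K K'] [Algebra E E'] [Algebra K E'] [IsScalarTower K E E']
  [IsScalarTower K K' E'] [Algebra.IsAlgebraic K K'] [Algebra.IsAlgebraic E E']
  [IsAlgClosed K'] [CharZero K'] [Fermat.Agent.S24.FF.IsFF1 K' E']

theorem exists_placeOver_extend (v : Place K E) :
    ∃ (w : Place K' E') (e : ℕ), PlaceOver v w e := by
  classical
  -- a valuation subring of `E'` dominating `O_v`
  let f : v.toValuationSubring →+* E' := (algebraMap E E').comp v.toValuationSubring.subtype
  obtain ⟨W, hWf, hloc⟩ := IsLocalRing.exists_factor_valuationRing f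
  have hcomap : ∀ x : E, algebraMap E E' x ∈ W ↔ x ∈ v.toValuationSubring := by
    intro x
    constructor
    · intro hx
      by_contra hxv
      have hx0 : x ≠ 0 := fun h => hxv (h ▸ zero_mem _)
      have hxi : x⁻¹ ∈ v.toValuationSubring :=
        (v.toValuationSubring.mem_or_inv_mem x).resolve_left hxv
      have hu : IsUnit (f.codRestrict W.toSubring hWf ⟨x⁻¹, hxi⟩) := by
        refine isUnit_iff_exists_inv.mpr ⟨⟨algebraMap E E' x, hx⟩, Subtype.ext ?_⟩
        show algebraMap E E' x⁻¹ * algebraMap E E' x = 1
        rw [← map_mul, inv_mul_cancel₀ hx0, map_one]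
      have hu' := hloc.map_nonunit _ hu
      obtain ⟨c, hc⟩ := isUnit_iff_exists_inv.mp hu'
      have hc' : x⁻¹ * (c : E) = 1 := congrArg Subtype.val hc
      have : (c : E) = x := by
        field_simp at hc'
        exact hc'
      exact hxv (this ▸ c.2)
    · intro hx
      exact hWf ⟨x, hx⟩
  have hK : ∀ a : K, algebraMap K E' a ∈ W := by
    intro a
    rw [IsScalarTower.algebraMap_apply K E E', hcomap]
    exact v.algebraMap_mem' a
  have hK' : ∀ a : K', algebraMap K' E' a ∈ W := by
    intro a
    have h1 : IsIntegral K a := (Algebra.IsAlgebraic.isAlgebraic a).isIntegral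
    have h2 : IsIntegral K (algebraMap K' E' a) := h1.map (IsScalarTower.toAlgHom K K' E')
    exact ext_mem_of_isIntegral W hK h2
  obtain ⟨t, ht⟩ := Fermat.Agent.S24.FF.exists_ord_eq_one v
  have ht0 : t ≠ 0 := Fermat.Agent.S24.FF.ne_zero_of_ord_ne_zero v (by rw [ht]; exact one_ne_zero)
  set t' : E' := algebraMap E E' t with ht'
  have htinv : t'⁻¹ ∉ W := by
    rw [ht', ← map_inv₀, hcomap, Fermat.Agent.S24.FF.mem_iff_ord_nonneg, v.ord_inv, ht]
    omega
  have htW : t' ∈ W := by
    rw [ht', hcomap, Fermat.Agent.S24.FF.mem_iff_ord_nonneg, ht]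
    omega
  have hWtop : W ≠ ⊤ := by
    intro h
    exact htinv (h ▸ ValuationSubring.mem_top _)
  have htr : Transcendental K' t' := by
    intro halg
    have h1 : IsAlgebraic K t' := halg.restrictScalars K
    have h2 : IsIntegral K t'⁻¹ := h1.inv.isIntegral
    exact htinv (ext_mem_of_isIntegral W hK h2)
  obtain ⟨w, hw⟩ := ext_exists_place W hK' t' htW hWtop htr
  obtain ⟨m, hm, hmul⟩ := Fermat.Agent.S24.FF.exists_eq_mul_ord v
    (fun x => w.ord (algebraMap E E' x))
    (fun x y hx hy => by
      simp only [map_mul]
      exact w.ord_mul ((_root_.map_ne_zero _).mpr hx) ((_root_.map_ne_zero _).mpr hy))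
    (fun x _ => by
      rw [← Fermat.Agent.S24.FF.mem_iff_ord_nonneg, hw, hcomap])
  refine ⟨w, m.toNat, by omega, fun x => ?_⟩
  rw [Int.toNat_of_nonneg hm.le]
  rcases eq_or_ne x 0 with rfl | hx
  · simp
  · exact hmul x hx

end Fermat.Agent.KLB
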