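import Fermat.Agent.KLB.Tame.Defs
import Fermat.Agent.S24.FFBasic

/-!
# KL-B tame layer, node INV
The horizontal hypotheses are symmetric under `x ↦ 1/x`.
-/

namespace Fermat.Agent.KLB

open AlgebraicCurve Polynomial Fermat.Agent.S24.FF

variable {K E : Type*} [Field K] [Field E] [Algebra K E] {x : E} {c : Set K} {m : ℕ}

/-- the reverse of an irreducible polynomial with non-zero constant term is irreducible. -/
theorem irreducible_reverse_of_coeff_zero_ne {G : K[X]} (hG : Irreducible G)
    (h0 : G.coeff 0 ≠ 0) : Irreducible G.reverse := by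
  have htr : ∀ p : K[X], p.coeff 0 ≠ 0 → p.natTrailingDegree = 0 := fun p hp =>
    Nat.le_zero.mp (natTrailingDegree_le_of_ne_zero hp)
  have hdeg : G.reverse.natDegree = G.natDegree := by
    rw [reverse_natDegree, htr G h0, Nat.sub_zero]
  have hrr : G.reverse.reverse = G := by
    conv_lhs => rw [reverse, hdeg, reverse, reflect_reflect]
  have hG0 : G ≠ 0 := hG.ne_zero
  refine ⟨fun hu => ?_, fun a b hab => ?_⟩
  · have h1 : G.reverse.natDegree = 0 := natDegree_eq_zero_of_isUnit hu
    rw [hdeg] at h1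
    exact hG.natDegree_pos.ne' h1
  · have hc0 : a.coeff 0 * b.coeff 0 ≠ 0 := by
      rw [← mul_coeff_zero, ← hab, coeff_zero_reverse]
      exact leadingCoeff_ne_zero.mpr hG0
    have ha0 : a.coeff 0 ≠ 0 := left_ne_zero_of_mul hc0
    have hb0 : b.coeff 0 ≠ 0 := right_ne_zero_of_mul hc0
    have hfac : G = a.reverse * b.reverse := by
      rw [← reverse_mul_of_domain, ← hab, hrr]
    have aux : ∀ p : K[X], p.coeff 0 ≠ 0 → IsUnit p.reverse → IsUnit p := by
      intro p hp hu
      have h1 : p.reverse.natDegree = 0 := natDegree_eq_zero_of_isUnit hu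
      rw [reverse_natDegree, htr p hp, Nat.sub_zero] at h1
      rw [eq_C_of_natDegree_eq_zero h1]
      exact (isUnit_C).mpr (IsUnit.mk0 _ hp)
    rcases hG.isUnit_or_isUnit hfac with h | h
    · exact Or.inl (aux a ha0 h)
    · exact Or.inr (aux b hb0 h)

/-- polynomial values at an integral element are integral. -/
theorem ord_aeval_nonneg (v : Place K E) {y : E} (hy : 0 ≤ v.ord y) (G : K[X]) :
    0 ≤ v.ord (aeval y G) := by
  rw [← mem_iff_ord_nonneg] at hy ⊢
  rw [aeval_eq_sum_range]
  refine sum_mem fun i _ => ?_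
  rw [Algebra.smul_def]
  exact mul_mem (v.algebraMap_mem' _) (pow_mem hy i)

/-- if `y` vanishes at `v` and `G(0) ≠ 0`, then `G(y)` is a unit at `v`. -/
theorem ord_aeval_eq_zero_of_pos (v : Place K E) {y : E} (hy : 0 < v.ord y) {G : K[X]}
    (h0 : G.coeff 0 ≠ 0) : v.ord (aeval y G) = 0 := by
  have hy0 : y ≠ 0 := ne_zero_of_ord_ne_zero v hy.ne'
  have hdec : aeval y G = algebraMap K E (G.coeff 0) + y * aeval y G.divX := by
    conv_lhs => rw [← divX_mul_X_add G]
    simp only [map_add, map_mul, aeval_X, aeval_C]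
    ring
  have hc : algebraMap K E (G.coeff 0) ≠ 0 := by
    simpa using h0
  rw [hdec]
  rcases eq_or_ne (aeval y G.divX) 0 with h | h
  · rw [h, mul_zero, add_zero, ord_algebraMap]
  · rw [ord_add_eq_of_lt v hc, ord_algebraMap]
    rw [ord_algebraMap, v.ord_mul hy0 h]
    have := ord_aeval_nonneg v hy.le G.divX
    omega

theorem HT.inv (h : HT K x c m) (hx : x ≠ 0) :
    HT K x⁻¹ (insert 0 ((fun a => a⁻¹) '' (c \ {0}))) m := by
  refine ⟨?_, ?_, ?_⟩
  · intro v G hG hGc
    have h0 : G.coeff 0 ≠ 0 := by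
      rw [coeff_zero_eq_eval_zero]
      exact hGc 0 (Set.mem_insert _ _)
    rcases lt_or_ge (v.ord x) 0 with hlt | hge
    · have : 0 < v.ord x⁻¹ := by rw [v.ord_inv]; omega
      rw [ord_aeval_eq_zero_of_pos v this h0]
      exact zero_le_one
    · rcases eq_or_ne (aeval x⁻¹ G) 0 with hz | hz
      · rw [hz, v.ord_zero]; exact zero_le_one
      have hrev : aeval x G.reverse = aeval x⁻¹ G * x ^ G.natDegree := by
        have h1 := aeval_inv_reflect (A := K) (inv_ne_zero hx) G.natDegree G le_rfl
        rw [inv_inv] at h1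
        rw [← h1, reverse, mul_assoc, ← mul_pow, inv_mul_cancel₀ hx, one_pow, mul_one]
      have hirr := irreducible_reverse_of_coeff_zero_ne hG h0
      have hne : ∀ a ∈ c, G.reverse.eval a ≠ 0 := by
        intro a ha
        rcases eq_or_ne a 0 with rfl | ha0
        · rw [← coeff_zero_eq_eval_zero, coeff_zero_reverse]
          exact leadingCoeff_ne_zero.mpr hG.ne_zero
        · have h1 := aeval_inv_reflect (A := K) (L := K) (inv_ne_zero ha0) G.natDegree G le_rfl
          rw [inv_inv] at h1
          intro h2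
          have h3 : aeval a (reflect G.natDegree G) = 0 := by
            rw [coe_aeval_eq_eval]; exact h2
          rw [h3, zero_mul, coe_aeval_eq_eval] at h1
          exact hGc a⁻¹ (Set.mem_insert_of_mem _ ⟨a, ⟨ha, ha0⟩, rfl⟩) h1.symm
      have h4 := h.unram v G.reverse hirr hne
      rw [hrev, v.ord_mul hz (pow_ne_zero _ hx), ord_pow] at h4
      have : 0 ≤ (G.natDegree : ℤ) * v.ord x := mul_nonneg (Int.natCast_nonneg _) hge
      omega
  · intro v a' ha' hpos
    rcases ha' with rfl | ⟨a, ⟨ha, ha0⟩, rfl⟩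
    · rw [map_zero, sub_zero] at hpos ⊢
      rw [v.ord_inv] at hpos ⊢
      rw [neg_dvd]
      exact h.tame_inf v (by omega)
    · have ha0 : a ≠ 0 := ha0
      have haE : algebraMap K E a ≠ 0 := by simpa using ha0
      have hd0 : x⁻¹ - algebraMap K E a⁻¹ ≠ 0 := ne_zero_of_ord_ne_zero v hpos.ne'
      -- `ord x = 0`
      have hx0 : v.ord x⁻¹ = 0 := by
        have h1 : x⁻¹ = -algebraMap K E a⁻¹ * (-1) + (x⁻¹ - algebraMap K E a⁻¹) := by ring
        have h2 : v.ord (algebraMap K E a⁻¹ + (x⁻¹ - algebraMap K E a⁻¹)) = 0 := by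
          rw [ord_add_eq_of_lt v (by simpa using ha0), ord_algebraMap]
          rw [ord_algebraMap]; exact hpos
        rwa [add_sub_cancel] at h2
      have hxa : x - algebraMap K E a ≠ 0 := by
        intro h0
        apply hd0
        rw [sub_eq_zero] at h0
        rw [h0, map_inv₀, sub_self]
      have hid : x⁻¹ - algebraMap K E a⁻¹ =
          -(x - algebraMap K E a) * (x⁻¹ * (algebraMap K E a)⁻¹) := by
        rw [map_inv₀]
        field_simp
        ring
      have hord : v.ord (x⁻¹ - algebraMap K E a⁻¹) = v.ord (x - algebraMap K E a) := by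
        rw [hid, v.ord_mul (neg_ne_zero.mpr hxa)
          (mul_ne_zero (inv_ne_zero hx) (inv_ne_zero haE)), ord_neg,
          v.ord_mul (inv_ne_zero hx) (inv_ne_zero haE), hx0, v.ord_inv, ord_algebraMap]
        ring
      show v.ord (x⁻¹ - algebraMap K E a⁻¹) ∣ (m : ℤ)
      rw [hord] at hpos ⊢
      exact h.tame v a ha hpos
  · intro v hneg
    rw [v.ord_inv] at hneg ⊢
    rw [neg_dvd]
    have hpos : 0 < v.ord x := by omega
    by_cases h0 : (0 : K) ∈ c
    · have := h.tame v 0 h0 (by rwa [map_zero, sub_zero])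
      rwa [map_zero, sub_zero] at this
    · have h1 := h.unram v X irreducible_X (fun a ha => by
        rw [eval_X]; rintro rfl; exact h0 ha)
      rw [aeval_X] at h1
      have : v.ord x = 1 := by omega
      rw [this]
      exact one_dvd _

end Fermat.Agent.KLB
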