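import Fermat.Agent.KLB.Kum.Root

/-!
# KL-B tame layer, node SIMPLE
A simple extension generated by a root of a monic integral polynomial with invertible derivative
has trivial codifferent; Kummer extensions by units.  (Restatements of `Unr.of_root` and
`Unr.of_kummer` of `Kum/Root.lean` with `IntermediateField.adjoin`.)
-/

namespace Fermat.Agent.KLB

open Polynomial

variable {O E₁ E₂ : Type*} [CommRing O] [Field E₁] [Field E₂] [Algebra O E₁] [Algebra O E₂]
  [Algebra E₁ E₂] [IsScalarTower O E₁ E₂] [FiniteDimensional E₁ E₂] [Algebra.IsSeparable E₁ E₂]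

omit [Algebra.IsSeparable E₁ E₂] in
theorem algebra_adjoin_eq_top_of_adjoin_eq_top (θ : E₂)
    (htop : IntermediateField.adjoin E₁ {θ} = ⊤) : Algebra.adjoin E₁ {θ} = ⊤ := by
  have := congrArg IntermediateField.toSubalgebra htop
  rwa [IntermediateField.adjoin_simple_toSubalgebra_of_isAlgebraic
    (IsIntegral.of_finite E₁ θ).isAlgebraic, IntermediateField.top_toSubalgebra] at this

theorem unr_of_simple (θ : E₂) (htop : IntermediateField.adjoin E₁ {θ} = ⊤) (P : E₁[X])
    (hP : P.Monic) (hPint : ∀ i, IsIntegral O (P.coeff i)) (hroot : aeval θ P = 0)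
    (hne : aeval θ (derivative P) ≠ 0)
    (hunit : IsIntegral O (aeval θ (derivative P))⁻¹) : Unr O E₁ E₂ :=
  Unr.of_root θ (algebra_adjoin_eq_top_of_adjoin_eq_top θ htop) P hP hPint hroot hne hunit

theorem unr_kummer (θ : E₂) (htop : IntermediateField.adjoin E₁ {θ} = ⊤) (n : ℕ) (u : E₁)
    (hθ : θ ^ n = algebraMap E₁ E₂ u) (hu : IsIntegral O u) (hu' : IsIntegral O u⁻¹)
    (hu0 : u ≠ 0) (hn : IsIntegral O ((n : E₁)⁻¹)) (hn0 : (n : E₁) ≠ 0) : Unr O E₁ E₂ := by
  have hn1 : n ≠ 0 := by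
    rintro rfl
    simp at hn0
  exact Unr.of_kummer θ (algebra_adjoin_eq_top_of_adjoin_eq_top θ htop) n hn1 u hθ hu0 hu hu'
    hn0 hn

end Fermat.Agent.KLB
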