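import Fermat.Agent.KLB.Tame.Res
import Fermat.Agent.KLB.Tame.Deg
import Fermat.Agent.KLB.Tame.Diff
import Fermat.Agent.KLB.Tame.Simple
import Fermat.Agent.S24.FFBasic

/-!
# KL-B tame layer, node KB
Kummer bound: in `E' = E(z)`, `z ^ M = c`, ramification indices are `≤ M / gcd (M, ord_v c)`.
-/

namespace Fermat.Agent.KLB

open AlgebraicCurve Polynomial

variable {K E E' : Type*} [Field K] [CharZero K] [Field E] [Field E'] [Algebra K E] [Algebra K E']
  [Algebra E E'] [IsScalarTower K E E']

omit [CharZero K] [IsScalarTower K E E'] in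
/-- Composition/uniqueness: if `w` lies over `v` and over `w₁`, and `w₁` over `v'`, then `v' = v`
and the indices multiply. -/
theorem PlaceOver.tower_eq_kb {E₁ : Type*} [Field E₁] [Algebra K E₁] [Algebra E E₁] [Algebra E₁ E']
    [IsScalarTower E E₁ E']
    {v v' : Place K E} {w₁ : Place K E₁} {w : Place K E'} {e e₁ e₂ : ℕ}
    (h : PlaceOver v w e) (h₂ : PlaceOver w₁ w e₂) (h₁ : PlaceOver v' w₁ e₁) :
    v' = v ∧ e = e₁ * e₂ := by
  have key : ∀ f : E, (e : ℤ) * v.ord f = (e₂ : ℤ) * ((e₁ : ℤ) * v'.ord f) := by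
    intro f
    rw [← h.2 f, IsScalarTower.algebraMap_apply E E₁ E' f, h₂.2, h₁.2]
  have he : (0 : ℤ) < e := by exact_mod_cast h.1
  have he₁ : (0 : ℤ) < e₁ := by exact_mod_cast h₁.1
  have he₂ : (0 : ℤ) < e₂ := by exact_mod_cast h₂.1
  have hv : v' = v := by
    apply S24.FF.place_ext_of_ord_nonneg
    intro f
    have := key f
    constructor
    · intro hf
      have h3 : 0 ≤ (e : ℤ) * v.ord f := by rw [this]; positivity
      exact nonneg_of_mul_nonneg_right h3 he
    · intro hf
      have h3 : 0 ≤ (e₂ : ℤ) * ((e₁ : ℤ) * v'.ord f) := by rw [← this]; positivity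
      exact nonneg_of_mul_nonneg_right (nonneg_of_mul_nonneg_right h3 he₂) he₁
  refine ⟨hv, ?_⟩
  subst hv
  obtain ⟨ϖ, hϖ⟩ := S24.FF.exists_ord_eq_one v'
  have := key ϖ
  rw [hϖ] at this
  have h4 : (e : ℤ) = ((e₁ * e₂ : ℕ) : ℤ) := by push_cast; linarith
  exact_mod_cast h4

theorem kummer_bound (z : E') (M : ℕ) (hM : 0 < M) (c : E) (hc : c ≠ 0)
    (hz : z ^ M = algebraMap E E' c) (htop : IntermediateField.adjoin E {z} = ⊤)
    {v : Place K E} {w : Place K E'} {e : ℕ} (h : PlaceOver v w e) :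
    e * Int.gcd M (v.ord c) ≤ M := by
  classical
  have : CharZero E := charZero_of_injective_algebraMap (algebraMap K E).injective
  set a : ℤ := v.ord c with ha
  set g : ℕ := Int.gcd M a with hg
  have hg0 : 0 < g := Int.gcd_pos_of_ne_zero_left _ (by exact_mod_cast hM.ne')
  obtain ⟨M1z, hM1z⟩ : (g : ℤ) ∣ (M : ℤ) := Int.gcd_dvd_left _ _
  obtain ⟨a1, ha1⟩ : (g : ℤ) ∣ a := Int.gcd_dvd_right _ _
  obtain ⟨M1, hM1⟩ : g ∣ M := by exact_mod_cast (Int.gcd_dvd_left (M : ℤ) a)
  have hM1pos : 0 < M1 := by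
    rcases Nat.eq_zero_or_pos M1 with h0 | h0
    · subst h0; simp at hM1; omega
    · exact h0
  obtain ⟨ϖ, hϖ⟩ := S24.FF.exists_ord_eq_one v
  have hϖ0 : ϖ ≠ 0 := S24.FF.ne_zero_of_ord_ne_zero v (by rw [hϖ]; exact one_ne_zero)
  -- integrality of z, finiteness
  have hzint : IsIntegral E z := by
    refine ⟨X ^ M - C c, monic_X_pow_sub_C c hM.ne', ?_⟩
    simp [hz]
  have hfin : FiniteDimensional E E' := by
    have := IntermediateField.adjoin.finiteDimensional hzint
    rw [htop] at this
    exact (IntermediateField.topEquiv (F := E) (E := E')).toLinearEquiv.finiteDimensional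
  -- the intermediate element
  set z1 : E' := z ^ M1 * (algebraMap E E' ϖ ^ a1)⁻¹ with hz1
  set υ : E := c * (ϖ ^ a)⁻¹ with hυ
  have hυ0 : υ ≠ 0 := mul_ne_zero hc (inv_ne_zero (zpow_ne_zero _ hϖ0))
  have hυord : v.ord υ = 0 := by
    rw [hυ, v.ord_mul hc (inv_ne_zero (zpow_ne_zero _ hϖ0)), v.ord_inv, v.ord_zpow, hϖ]
    simp [ha]
  have hz1g : z1 ^ g = algebraMap E E' υ := by
    rw [hz1, mul_pow, ← pow_mul, mul_comm M1 g, ← hM1, hz, hυ, map_mul, map_inv₀, map_zpow₀,
      inv_pow, ← zpow_natCast (algebraMap E E' ϖ ^ a1) g, ← zpow_mul, mul_comm a1, ← ha1]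
  let E1 : IntermediateField E E' := IntermediateField.adjoin E {z1}
  let θ : E1 := IntermediateField.AdjoinSimple.gen E z1
  have hθtop : IntermediateField.adjoin E {θ} = ⊤ := by
    apply IntermediateField.map_injective E1.val
    rw [IntermediateField.adjoin_map, Set.image_singleton]
    have h1 : E1.val θ = z1 := rfl
    rw [h1, ← AlgHom.fieldRange_eq_map, IntermediateField.fieldRange_val]
  have hθ : θ ^ g = algebraMap E E1 υ := by
    apply Subtype.ext
    exact hz1g
  have : IsScalarTower K E1 E' := IsScalarTower.of_algebraMap_eq (fun x => rfl)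
  have : IsScalarTower K E E1 := IsScalarTower.of_algebraMap_eq (fun x => by
    apply Subtype.ext
    exact IsScalarTower.algebraMap_apply K E E' x)
  obtain ⟨w1, e2, hw1⟩ := exists_placeOver_restrict (K := K) (E := E1) w
  obtain ⟨v', e1, hv'⟩ := exists_placeOver_restrict (K := K) (E := E) w1
  obtain ⟨rfl, hee⟩ := PlaceOver.tower_eq_kb h hw1 hv'
  have hunr : Unr v'.toValuationSubring E E1 := by
    have hmem : ∀ f : E, f ∈ v'.toValuationSubring → IsIntegral v'.toValuationSubring f :=
      fun f hf => (isIntegral_algebraMap (R := v'.toValuationSubring) (A := E) (x := ⟨f, hf⟩))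
    refine unr_kummer θ hθtop g υ hθ (hmem _ ?_) (hmem _ ?_) hυ0 (hmem _ ?_)
      (by exact_mod_cast hg0.ne')
    · exact S24.FF.mem_of_ord_nonneg v' (by rw [hυord])
    · exact S24.FF.mem_of_ord_nonneg v' (by rw [v'.ord_inv, hυord]; simp)
    · have : ((g : E))⁻¹ = algebraMap K E ((g : K)⁻¹) := by simp
      rw [this]
      exact v'.algebraMap_mem' _
  have he1 : e1 = 1 := hv'.eq_one_of_unr hunr
  have he2 : e2 ≤ Module.finrank E1 E' := hw1.le_finrank
  have hfr : Module.finrank E1 E' ≤ M1 := by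
    have htop1 : IntermediateField.adjoin E1 {z} = ⊤ := by
      apply IntermediateField.restrictScalars_injective E
      rw [IntermediateField.restrictScalars_top, eq_top_iff, ← htop,
        IntermediateField.adjoin_le_iff]
      intro y hy
      rw [Set.mem_singleton_iff] at hy
      subst hy
      exact IntermediateField.mem_adjoin_simple_self E1 y
    have hzint1 : IsIntegral E1 z := hzint.tower_top
    have h1 : Module.finrank E1 E' = (minpoly E1 z).natDegree := by
      rw [← IntermediateField.adjoin.finrank hzint1, htop1, IntermediateField.finrank_top']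
    rw [h1]
    set d : E1 := θ * algebraMap E E1 (ϖ ^ a1) with hd
    have hroot : aeval z (X ^ M1 - C d : E1[X]) = 0 := by
      have h2 : algebraMap E1 E' d = z ^ M1 := by
        have h3 : algebraMap E1 E' d = z1 * algebraMap E E' (ϖ ^ a1) := rfl
        rw [h3, hz1, map_zpow₀, mul_assoc, inv_mul_cancel₀, mul_one]
        exact zpow_ne_zero _ (by simpa using hϖ0)
      simp [h2]
    have hmon : (X ^ M1 - C d : E1[X]).Monic := monic_X_pow_sub_C d hM1pos.ne'
    have := natDegree_le_natDegree (minpoly.min E1 z hmon hroot)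
    rwa [natDegree_X_pow_sub_C] at this
  calc e * g = e2 * g := by rw [hee, he1, one_mul]
    _ ≤ M1 * g := Nat.mul_le_mul_right _ (he2.trans hfr)
    _ = M := by rw [hM1, mul_comm]

end Fermat.Agent.KLB
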