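import Fermat.Agent.KLB.Tame.Defs
import Fermat.Agent.S24.FFBasic

/-!
# KL-B tame layer, node RES
Restriction of a place to a subfield over which the big field is algebraic.
-/

namespace Fermat.Agent.KLB

open AlgebraicCurve Polynomial

variable {K E E' : Type*} [Field K] [Field E] [Field E'] [Algebra K E] [Algebra K E']
  [Algebra E E'] [IsScalarTower K E E']

omit [Algebra K E] [IsScalarTower K E E'] in
/-- A place of `E'` is not trivial on a subfield `E` over which `E'` is algebraic. -/
theorem exists_ord_algebraMap_neg [Algebra.IsAlgebraic E E'] (w : Place K E') :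
    ∃ f : E, w.ord (algebraMap E E' f) < 0 := by
  by_contra hcon
  push Not at hcon
  let g : E →+* w.toValuationSubring :=
    (algebraMap E E').codRestrict w.toValuationSubring.toSubring
      (fun f => S24.FF.mem_of_ord_nonneg w (hcon f))
  obtain ⟨π, hπ⟩ := S24.FF.exists_ord_eq_one w
  have hint : IsIntegral E π⁻¹ := Algebra.IsIntegral.isIntegral _
  obtain ⟨p, hp, hp0⟩ := hint
  have hint' : IsIntegral w.toValuationSubring π⁻¹ :=
    ⟨p.map g, hp.map g, by rw [Polynomial.eval₂_map]; exact hp0⟩
  obtain ⟨y, hy⟩ := IsIntegrallyClosed.isIntegral_iff.mp hint'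
  have h1 := S24.FF.ord_nonneg_of_mem w y.2
  have h2 : (y : E') = π⁻¹ := hy
  rw [h2, w.ord_inv, hπ] at h1
  omega

omit [Algebra K E] [IsScalarTower K E E'] in
/-- The pull-back of the valuation ring of a place is a principal ideal ring. -/
theorem isPrincipalIdealRing_comap (w : Place K E') :
    IsPrincipalIdealRing (w.toValuationSubring.comap (algebraMap E E')) := by
  constructor
  intro I
  by_cases hI : I = ⊥
  · rw [hI]; exact bot_isPrincipal
  obtain ⟨a₀, ha₀, ha₀0⟩ := Submodule.exists_mem_ne_zero_of_ne_bot hI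
  have hnn : ∀ b : w.toValuationSubring.comap (algebraMap E E'),
      0 ≤ w.ord (algebraMap E E' (b : E)) := fun b =>
    S24.FF.ord_nonneg_of_mem w (ValuationSubring.mem_comap.mp b.2)
  let S : Set ℕ := {n | ∃ a ∈ I, a ≠ 0 ∧ w.ord (algebraMap E E' (a : E)) = n}
  have hS : S.Nonempty := ⟨(w.ord (algebraMap E E' (a₀ : E))).toNat, a₀, ha₀, ha₀0,
    (Int.toNat_of_nonneg (hnn a₀)).symm⟩
  obtain ⟨a, haI, ha0, han⟩ := Nat.sInf_mem hS
  have ha0' : (a : E) ≠ 0 := fun h => ha0 (Subtype.ext h)
  refine ⟨a, le_antisymm ?_ ?_⟩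
  · intro b hb
    rw [Submodule.mem_span_singleton]
    by_cases hb0 : b = 0
    · exact ⟨0, by simp [hb0]⟩
    have hb0' : (b : E) ≠ 0 := fun h => hb0 (Subtype.ext h)
    have hle : w.ord (algebraMap E E' (a : E)) ≤ w.ord (algebraMap E E' (b : E)) := by
      have hb' : (w.ord (algebraMap E E' (b : E))).toNat ∈ S :=
        ⟨b, hb, hb0, (Int.toNat_of_nonneg (hnn b)).symm⟩
      have h1 := Nat.sInf_le hb'
      have h2 := hnn b
      omega
    have hq : (b : E) / a ∈ w.toValuationSubring.comap (algebraMap E E') := by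
      rw [ValuationSubring.mem_comap, map_div₀]
      apply S24.FF.mem_of_ord_nonneg
      rw [div_eq_mul_inv, w.ord_mul (by simpa using hb0') (by simpa using ha0'), w.ord_inv]
      omega
    refine ⟨⟨(b : E) / a, hq⟩, ?_⟩
    ext
    simp only [smul_eq_mul, MulMemClass.coe_mul]
    field_simp
  · rw [Submodule.span_singleton_le_iff_mem]
    exact haI

/-- The restriction of a place of `E'` to a subfield `E` over which `E'` is algebraic. -/
noncomputable def restrictPlace [Algebra.IsAlgebraic E E'] (w : Place K E') : Place K E where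
  toValuationSubring := w.toValuationSubring.comap (algebraMap E E')
  algebraMap_mem' a := by
    rw [ValuationSubring.mem_comap, ← IsScalarTower.algebraMap_apply]
    exact w.algebraMap_mem' a
  ne_top' h := by
    obtain ⟨f, hf⟩ := exists_ord_algebraMap_neg (E := E) w
    have hmem : f ∈ w.toValuationSubring.comap (algebraMap E E') := by
      rw [h]; exact ValuationSubring.mem_top f
    rw [ValuationSubring.mem_comap] at hmem
    have := S24.FF.ord_nonneg_of_mem w hmem
    omega
  isPrincipalIdealRing' := isPrincipalIdealRing_comap w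

theorem exists_placeOver_restrict [Algebra.IsAlgebraic E E'] (w : Place K E') :
    ∃ (v : Place K E) (e : ℕ), PlaceOver v w e := by
  obtain ⟨m, hm, h⟩ := S24.FF.exists_eq_mul_ord (restrictPlace (E := E) w)
    (fun f => w.ord (algebraMap E E' f))
    (fun f g hf hg => by
      simp only [map_mul]
      exact w.ord_mul (by simpa using hf) (by simpa using hg))
    (fun f _ => by
      change _ ↔ f ∈ w.toValuationSubring.comap (algebraMap E E')
      rw [ValuationSubring.mem_comap, S24.FF.mem_iff_ord_nonneg])
  refine ⟨restrictPlace (E := E) w, m.toNat, by omega, fun f => ?_⟩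
  rw [Int.toNat_of_nonneg hm.le]
  rcases eq_or_ne f 0 with rfl | hf
  · simp
  · exact h f hf

end Fermat.Agent.KLB
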