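import Fermat.Agent.KLB.Abs.Poly

/-!
# KL-B tame layer, node SPAN
-/

namespace Fermat.Agent.KLB

open Polynomial

variable {A L : Type*} [CommRing A] [IsDomain A] [IsDiscreteValuationRing A] [Field L]
  [Algebra A L] {x : L} {π : A}

/-- the element `x - b` of `A[x]`. -/
def subC (x : L) (b : A) : Algebra.adjoin A {x} :=
  ⟨x, Algebra.self_mem_adjoin_singleton A x⟩ - algebraMap A _ b

theorem span_eq_top [DecidableEq A] (c : Finset A) (hne : c.Nonempty)
    (hc : ∀ a ∈ c, ∀ b ∈ c, a ≠ b → IsUnit (a - b)) (k : A → ℕ) :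
    Ideal.span (insert (algebraMap A (Algebra.adjoin A {x}) π)
      ((fun a => (∏ b ∈ c.erase a, subC x b) ^ k a) '' (c : Set A))) = ⊤ := by
  by_contra hI
  obtain ⟨M, hM, hle⟩ := Ideal.exists_le_maximal _ hI
  have hMp : M.IsPrime := hM.isPrime
  have key : ∀ a ∈ c, ∃ b ∈ c, b ≠ a ∧ subC x b ∈ M := by
    intro a ha
    have h1 : (∏ b ∈ c.erase a, subC x b) ^ k a ∈ M :=
      hle (Ideal.subset_span (Set.mem_insert_of_mem _ ⟨a, ha, rfl⟩))
    have h2 : ∏ b ∈ c.erase a, subC x b ∈ M := hMp.mem_of_pow_mem _ h1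
    obtain ⟨b, hb, hbM⟩ := (hMp.prod_mem_iff).mp h2
    rw [Finset.mem_erase] at hb
    exact ⟨b, hb.2, hb.1, hbM⟩
  obtain ⟨a0, ha0⟩ := hne
  obtain ⟨b1, hb1, -, h1M⟩ := key a0 ha0
  obtain ⟨b2, hb2, hne2, h2M⟩ := key b1 hb1
  have h3 : algebraMap A (Algebra.adjoin A {x}) (b2 - b1) ∈ M := by
    have : algebraMap A (Algebra.adjoin A {x}) (b2 - b1) = subC x b1 - subC x b2 := by
      rw [subC, subC, map_sub]
      ring
    rw [this]
    exact M.sub_mem h1M h2M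
  exact hM.ne_top (Ideal.eq_top_of_isUnit_mem _ h3 ((hc b2 hb2 b1 hb1 hne2).map _))

theorem subC_eq_polyEquiv (hx : Transcendental A x) (b : A) :
    subC x b = polyEquiv hx (X - C b) := by
  apply Subtype.ext
  rw [coe_polyEquiv]
  simp [subC]

theorem not_dvd_prod (hx : IsCoord A x) (hπ : Irreducible π) (c : Finset A) :
    ¬ algebraMap A (Algebra.adjoin A {x}) π ∣ ∏ b ∈ c, subC x b := by
  intro h
  obtain ⟨b, -, hb⟩ := (Prime.dvd_finsetProd_iff (hx.prime hπ) _).mp h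
  rw [subC_eq_polyEquiv hx.trans, hx.dvd_iff, C_dvd_iff_dvd_coeff] at hb
  have h1 := hb 1
  have h2 : (X - C b : A[X]).coeff 1 = 1 := by simp [coeff_X]
  rw [h2] at h1
  exact hπ.not_isUnit (isUnit_of_dvd_one h1)

end Fermat.Agent.KLB
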