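import Fermat.Agent.KLB.Tame.Simple
import Fermat.Agent.KLB.Tame.CoverPlumb
import Fermat.Agent.KLB.Tame.CoverFin

/-!
# KL-B tame layer, node VCOV (STUB until the proof is filled in)
The cover is vertically unramified.
-/

namespace Fermat.Agent.KLB

open AlgebraicCurve Polynomial

variable {A K L E L' E' : Type*} [CommRing A] [IsDomain A] [IsDiscreteValuationRing A] [Field K]
  [CharZero K] [Field L] [Field E] [Field L'] [Field E']
  [Algebra A K] [IsFractionRing A K] [Algebra A L] [Algebra K L] [IsScalarTower A K L]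
  [Algebra L E] [Algebra K E] [IsScalarTower K L E] [FiniteDimensional L E]
  [Algebra A L'] [Algebra K L'] [IsScalarTower A K L'] [Algebra L L'] [IsScalarTower A L L']
  [IsScalarTower K L L']
  [Algebra E E'] [Algebra L' E'] [Algebra L E'] [Algebra K E'] [IsScalarTower L E E']
  [IsScalarTower L L' E'] [IsScalarTower K L' E'] [IsScalarTower K E E']
  {x : L} {a : A} {m : ℕ} {μ : L'}

theorem IsCover.unr_gauss (hcov : IsCover A (E := E) (E' := E') x a m μ) (hx : IsCoord A x)
    {π : A} (hπ : Irreducible π) {Og : Subring L} (hOg : IsLocSub (ndvd (hx.prime hπ)) Og)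
    {Og' : Subring L'} (hOg' : IsLocSub (ndvd (hcov.coord.prime hπ)) Og')
    (hm : IsUnit (m : A)) (hv : Unr Og L E) : Unr Og' L' E' := by
  sorry

end Fermat.Agent.KLB
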